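import Mathlib

/-!
# S28, Part B1: the counting lemma (Moebius inversion on the divisors of `N`)

If `∑_s gcd(c s, d)^2 = d * |S|` for all `d ∣ N`, then `J₂(N) * #{s | c s = N} = φ(N) * |S|`.
Applied to two finite sets this gives the proportionality below.

Proof sketch.  Let `J₂ : ℕ → ℤ` with `∑_{e ∣ m} J₂ e = m^2` (e.g. `μ * pow 2`, Moebius inversion, or define
it by strong recursion).  Put `Y e = #{s | e ∣ c s}`.
Then `∑_s gcd(c s,d)^2 = ∑_s ∑_{e ∣ gcd(c s,d)} J₂ e = ∑_{e ∣ d} J₂ e * Y e`, and `d * |S| = ∑_{e ∣ d} φ e * |S|`.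
Strong induction on `d ∣ N` gives `J₂ d * Y d = φ d * |S|`.  Take `d = N`; `N ∣ c s ↔ c s = N`.
With the same for `T`:  `Y_S N * (φ N * |T|) = Y_S N * J₂ N * Y_T N = (φ N * |S|) * Y_T N`, and `φ N > 0`.
-/

set_option autoImplicit false

namespace Fermat.Agent.S28.DG

/-- Jordan's totient `J₂` exists. -/
theorem exists_jordan_two : ∃ J : ℕ → ℤ, ∀ m : ℕ, 0 < m → ∑ e ∈ m.divisors, J e = (m : ℤ) ^ 2 :=
  ⟨fun n => ∑ x ∈ n.divisorsAntidiagonal, (ArithmeticFunction.moebius x.1 : ℤ) * (x.2 : ℤ) ^ 2,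
    (ArithmeticFunction.sum_eq_iff_sum_mul_moebius_eq (R := ℤ)
      (g := fun m => (m : ℤ) ^ 2)).mpr fun _ _ => rfl⟩

/-- One finite set: `J₂ d * #{s | d ∣ c s} = φ d * |S|` for all `d ∣ N`. -/
theorem count_aux (N : ℕ) (hN : 0 < N) {S : Type} [Fintype S] (c : S → ℕ)
    (h : ∀ d, d ∣ N →
      ∑ s, (((N / d : ℕ) : ℤ) * ((Nat.gcd (c s) d : ℕ) : ℤ) ^ 2 - (N : ℤ)) = 0)
    (J : ℕ → ℤ) (hJ : ∀ m : ℕ, 0 < m → ∑ e ∈ m.divisors, J e = (m : ℤ) ^ 2) (d : ℕ) (hd : d ∣ N) :
    J d * ((Finset.univ.filter fun s => d ∣ c s).card : ℤ) =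
      (Nat.totient d : ℤ) * (Fintype.card S : ℤ) := by
  classical
  induction d using Nat.strong_induction_on with
  | _ d ih =>
    have hd0 : 0 < d := Nat.pos_of_dvd_of_pos hd hN
    -- the hypothesis, simplified
    have h1 : ∑ s, ((Nat.gcd (c s) d : ℕ) : ℤ) ^ 2 = (d : ℤ) * (Fintype.card S : ℤ) := by
      have h2 := h d hd
      rw [Finset.sum_sub_distrib, ← Finset.mul_sum, Finset.sum_const, Finset.card_univ,
        nsmul_eq_mul] at h2
      obtain ⟨k, rfl⟩ := hd
      have hk0 : 0 < k := Nat.pos_of_mul_pos_left hN |> fun h => by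
        rcases Nat.eq_zero_or_pos k with rfl | hk
        · simp at hN
        · exact hk
      rw [Nat.mul_div_cancel_left k hd0] at h2
      have hk : (k : ℤ) ≠ 0 := by exact_mod_cast hk0.ne'
      apply mul_left_cancel₀ hk
      push_cast at h2 ⊢
      linear_combination h2
    -- expand the squares with `J`
    have h3 : ∑ s, ((Nat.gcd (c s) d : ℕ) : ℤ) ^ 2 =
        ∑ e ∈ d.divisors, J e * ((Finset.univ.filter fun s => e ∣ c s).card : ℤ) := by
      have h4 : ∀ s, ((Nat.gcd (c s) d : ℕ) : ℤ) ^ 2 =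
          ∑ e ∈ d.divisors, if e ∣ c s then J e else 0 := by
        intro s
        rw [← hJ _ (Nat.gcd_pos_of_pos_right _ hd0), ← Finset.sum_filter]
        refine Finset.sum_congr ?_ fun _ _ => rfl
        ext e
        simp only [Nat.mem_divisors, Finset.mem_filter, Nat.dvd_gcd_iff]
        constructor
        · rintro ⟨⟨h5, h6⟩, -⟩
          exact ⟨⟨h6, hd0.ne'⟩, h5⟩
        · rintro ⟨⟨h6, -⟩, h5⟩
          exact ⟨⟨h5, h6⟩, (Nat.gcd_pos_of_pos_right _ hd0).ne'⟩
      simp only [h4]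
      rw [Finset.sum_comm]
      refine Finset.sum_congr rfl fun e _ => ?_
      rw [← Finset.sum_filter, Finset.sum_const, nsmul_eq_mul, mul_comm]
    have h5 : (d : ℤ) * (Fintype.card S : ℤ) =
        ∑ e ∈ d.divisors, (Nat.totient e : ℤ) * (Fintype.card S : ℤ) := by
      rw [← Finset.sum_mul]
      congr 1
      exact_mod_cast (Nat.sum_totient d).symm
    rw [h3, h5, ← Nat.cons_self_properDivisors hd0.ne', Finset.sum_cons, Finset.sum_cons] at h1
    have h6 : ∑ e ∈ d.properDivisors, J e * ((Finset.univ.filter fun s => e ∣ c s).card : ℤ) =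
        ∑ e ∈ d.properDivisors, (Nat.totient e : ℤ) * (Fintype.card S : ℤ) := by
      refine Finset.sum_congr rfl fun e he => ?_
      rw [Nat.mem_properDivisors] at he
      exact ih e he.2 (he.1.trans hd)
    rw [h6] at h1
    exact add_right_cancel h1

theorem count_main (N : ℕ) (hN : 0 < N) {S T : Type} [Fintype S] [Fintype T]
    (c : S → ℕ) (c' : T → ℕ) (hc : ∀ s, c s ∣ N) (hc' : ∀ t, c' t ∣ N)
    (h : ∀ d, d ∣ N →
      ∑ s, (((N / d : ℕ) : ℤ) * ((Nat.gcd (c s) d : ℕ) : ℤ) ^ 2 - (N : ℤ)) = 0)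
    (h' : ∀ d, d ∣ N →
      ∑ t, (((N / d : ℕ) : ℤ) * ((Nat.gcd (c' t) d : ℕ) : ℤ) ^ 2 - (N : ℤ)) = 0) :
    Nat.card {s // c s = N} * Nat.card T = Nat.card {t // c' t = N} * Nat.card S := by
  classical
  obtain ⟨J, hJ⟩ := exists_jordan_two
  have hS := count_aux N hN c h J hJ N dvd_rfl
  have hT := count_aux N hN c' h' J hJ N dvd_rfl
  have eS : Nat.card {s // c s = N} = (Finset.univ.filter fun s => N ∣ c s).card := by
    rw [Nat.card_eq_fintype_card, Fintype.card_subtype]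
    congr 1
    ext s
    simp only [Finset.mem_filter, Finset.mem_univ, true_and]
    exact ⟨fun h => h ▸ dvd_rfl, fun h => Nat.dvd_antisymm (hc s) h⟩
  have eT : Nat.card {t // c' t = N} = (Finset.univ.filter fun t => N ∣ c' t).card := by
    rw [Nat.card_eq_fintype_card, Fintype.card_subtype]
    congr 1
    ext t
    simp only [Finset.mem_filter, Finset.mem_univ, true_and]
    exact ⟨fun h => h ▸ dvd_rfl, fun h => Nat.dvd_antisymm (hc' t) h⟩
  rw [eS, eT, Nat.card_eq_fintype_card, Nat.card_eq_fintype_card]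
  have hφ : (Nat.totient N : ℤ) ≠ 0 := by
    exact_mod_cast (Nat.totient_pos.mpr hN).ne'
  have key : ((Finset.univ.filter fun s => N ∣ c s).card : ℤ) * (Fintype.card T : ℤ) =
      ((Finset.univ.filter fun t => N ∣ c' t).card : ℤ) * (Fintype.card S : ℤ) := by
    apply mul_left_cancel₀ hφ
    linear_combination ((Finset.univ.filter fun t => N ∣ c' t).card : ℤ) * hS -
      ((Finset.univ.filter fun s => N ∣ c s).card : ℤ) * hT
  exact_mod_cast key

end Fermat.Agent.S28.DG
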