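import Fermat.Agent.S28.DG.Abstract.CharZero
import Fermat.Agent.S28.DG.Abstract.Indep

/-!
# S28, Part B: the abstract theorem on `CuspData`
(modular-unit argument with the decomposition group)
-/

set_option autoImplicit false
open ModularCurve
noncomputable section

namespace Fermat.Agent.S28.DG

/-- **Part B main theorem.** From a `CuspData` over `O`, a field `C ⊇ O` and a surjection `π : O → k`
onto a field, we get a number `n` (the number of conjugates of `j_N` over `Frac(O)(j)`) such that
1. `j_N` is a root of a monic polynomial with coefficients in `O[j]`;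
2. there is a subfield `S` of `C((q_N))` containing all `j_d` in which every element is a
   `Frac(O[j])`-combination of `1, θ, …, θ^(n-1)`;
3. the reductions of `1, θ, …, θ^(n-1)` are linearly independent over `k[j]`. -/
theorem CuspData.main {N : ℕ} [NeZero N] {O : Type} [CommRing O] [IsDomain O] (D : CuspData N O)
    (C : Type) [Field C] [Algebra O C] [FaithfulSMul O C]
    (k : Type) [Field k] (π : O →+* k) (hπ : Function.Surjective π) :
    ∃ n : ℕ,
      (∃ Φ : Polynomial (Polynomial O), Φ.Monic ∧
        Φ.eval₂ (Polynomial.aeval (qExpand O N (jqModC O))).toRingHom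
          (qExpand O N (qExpand O N (jqModC O))) = 0) ∧
      (∃ S : Subfield (LaurentSeries C),
        (∀ (d : ℕ) [NeZero d], d ∣ N → qExpand C N (qExpand C d (jqModC C)) ∈ S) ∧
        ∀ y ∈ S, ∃ (b : Polynomial O) (a : Fin n → Polynomial O), b ≠ 0 ∧
          Polynomial.aeval (qExpand C N (jqModC C)) b * y =
            ∑ i, Polynomial.aeval (qExpand C N (jqModC C)) (a i) *
              (qExpand C N (qExpand C N (jqModC C))) ^ (i : ℕ)) ∧
      (∀ a : Fin n → Polynomial k,
        ∑ i, Polynomial.aeval (qExpand k N (jqModC k)) (a i) *
          (qExpand k N (qExpand k N (jqModC k))) ^ (i : ℕ) = 0 → a = 0) :=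
  ⟨D.deg, D.monic_relation, D.exists_subfield C, fun a h => D.indep π hπ a h⟩

end Fermat.Agent.S28.DG
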