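import Fermat.Statements.S28

/-!
# S28 (Igusa): shared definitions / interfaces between the parts of the proof

Notation of the informal plan:
* `R = ℤ_(ℓ) = GaloisRep.ratLocalizedAt ℓ`, `F = modularFunctionFieldFull N ⊆ ℚ((q))`,
* `j = jq`, `θ = j_N = qExpand ℚ N jq = jqN N`.
-/

set_option autoImplicit false
open ModularCurve ModularCurve.IgusaScheme
noncomputable section

namespace Fermat.Agent.S28.DG

/-- `ℤ_(ℓ)` as a type. -/
abbrev Rl (ℓ : ℕ) : Type := ↥(GaloisRep.ratLocalizedAt ℓ)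

/-- `θ = j(q^N)` as an element of the function field. -/
def thetaFull (N : ℕ) [NeZero N] : ↥(modularFunctionFieldFull N) :=
  ⟨qExpand ℚ N jq, jqd_mem_full N dvd_rfl⟩

@[simp] theorem coe_thetaFull (N : ℕ) [NeZero N] :
    (thetaFull N : LaurentSeries ℚ) = qExpand ℚ N jq := rfl

/-- **Interface B → C.**  The arithmetic input on the function field:
`θ = j_N` is integral over `ℤ_(ℓ)[j]`, the powers `θ^i` (`i < n`) span `F` over `ℚ(j)`, and their
reductions mod `ℓ` stay linearly independent over `𝔽_ℓ[j]`. -/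
structure DegreeData (N : ℕ) [NeZero N] (ℓ : ℕ) [Fact ℓ.Prime] (n : ℕ) : Prop where
  integral : thetaFull N ∈ chartAlgFin N ℓ
  span : ∀ x ∈ modularFunctionFieldFull N,
    ∃ (b : Polynomial ℤ) (a : Fin n → Polynomial ℤ), b ≠ 0 ∧
      evalAtJ b * x = ∑ i, evalAtJ (a i) * (qExpand ℚ N jq) ^ (i : ℕ)
  indep : ∀ a : Fin n → Polynomial (ZMod ℓ),
    ∑ i, Polynomial.aeval (jqModC (ZMod ℓ)) (a i) * (jqNModC (ZMod ℓ) N) ^ (i : ℕ) = 0 → a = 0

/-- **Interface A → B.**  Abstract package of "modular functions of level `N` with `q_N`-expansions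
having coefficients in `O`" (`q_N = q^{1/N}`, so `j` has expansion `j(q_N^N)`).
* `B` : ring of functions, `G` : finite quotient of `SL₂(ℤ)` acting on it, `ε` : expansion at `∞`;
* `J d = j(dτ)`, `U d = Δ(dτ)/Δ(τ)` up to a unit constant;
* invariants of `G` are the polynomials in `j = J 1`;
* every `g : G` has a "denominator" `c ∣ N` which governs the orders at `∞` of `g • U d`, `g • J N`. -/
structure CuspData (N : ℕ) [NeZero N] (O : Type) [CommRing O] [IsDomain O] where
  B : Type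
  [instRing : CommRing B]
  [instAlg : Algebra O B]
  G : Type
  [instGroup : Group G]
  [instFinite : Finite G]
  [instAct : MulSemiringAction G B]
  smul_algebraMap : ∀ (g : G) (r : O), g • algebraMap O B r = algebraMap O B r
  ε : B →ₐ[O] LaurentSeries O
  ε_injective : Function.Injective ε
  J : ℕ → B
  U : ℕ → Bˣ
  ε_J : ∀ (d : ℕ) [NeZero d], d ∣ N → ε (J d) = qExpand O N (qExpand O d (jqModC O))
  smul_J_one : ∀ g : G, g • J 1 = J 1
  invariant : ∀ b : B, (∀ g : G, g • b = b) → ∃ p : Polynomial O, Polynomial.aeval (J 1) p = b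
  exists_c : ∀ g : G, ∃ c : ℕ, c ∣ N ∧
    (∀ d : ℕ, d ∣ N →
      (ε (g • (U d : B))).order = ((N / d : ℕ) : ℤ) * ((Nat.gcd c d : ℕ) : ℤ) ^ 2 - (N : ℤ) ∧
      IsUnit (ε (g • (U d : B))).leadingCoeff) ∧
    ((ε (g • J N)).order = - ((c : ℤ) ^ 2) ∧ IsUnit (ε (g • J N)).leadingCoeff) ∧
    (c = N → ∀ d : ℕ, d ∣ N → g • J d = J d)

attribute [instance] CuspData.instRing CuspData.instAlg CuspData.instGroup CuspData.instFinite
  CuspData.instAct

end Fermat.Agent.S28.DG
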