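import Fermat.Agent.S28.DG.Vring
import Fermat.Agent.S28.LemmaS2

/-!
# S28, Part C2: reduction maps on the three chart algebras

Plan (R = ℤ_(ℓ), W = range of `iotaL`, θ = j_N).
* finite chart.  For `x ∈ A_fin` use `h.span` to write `b(j) x = ∑ a_i(j) θ^i ∈ W` with `b ≠ 0`; `x` is integral over
  `R[j] ⊆ W`, so `x ∈ Vring` (`mem_Vring_of_isIntegral`).  `φ := redV ∘ incl`.
  Kernel: divide `(b, a_i)` by the largest common power of `ℓ` (in `ℤ[X]`), so that not all are `≡ 0 mod ℓ`.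
  `redV_spec`: `b̄(j̄) * φ x = ∑ ā_i(j̄) θ̄^i`.  If `φ x = 0` then `ā_i = 0` by `h.indep`, so `b̄ ≠ 0` and `a_i = ℓ a_i'`.
  So `y = x/ℓ` satisfies: `ℓ • y = x` integral over `R[j]`, `b(j) • y = ∑ a_i'(j) θ^i` integral over `R[j]` (`h.integral`).
  Apply `isIntegral_of_smul_of_smul` with `A₀ = (Rl ℓ)[X]` acting on `F` through `X ↦ j` (`j` is transcendental),
  `p = C ℓ` (prime), `b` (not divisible by `ℓ`).  `IsIntegral (Algebra.adjoin R {j}) x ↔ IsIntegral R[X] x`.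
* overlap chart: `A_mid` is the localisation of `A_fin` at `j` (`isLocalization_away_inclFin`, `exists_pow_mul_mem_chartAlg`);
  `φ_mid (x) = φ_fin (j^n x) / j̄^n`; the kernel statement follows from the one for `A_fin`.
* chart at infinity: `φ_inf = φ_mid ∘ inclInf`.  If `φ_inf x = 0` then `x = ℓ z`, `z ∈ A_mid`, and `s^n z ∈ A_inf` for some `n`
  (`s = j⁻¹`, `exists_pow_mul_mem_chartAlg`).  Apply `isIntegral_of_smul_of_smul` with `A₀ = (Rl ℓ)[X]`, `X ↦ j⁻¹`, `p = C ℓ`, `b = X^n`.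
-/

set_option autoImplicit false
set_option linter.unusedSectionVars false
open ModularCurve ModularCurve.IgusaScheme
noncomputable section

namespace Fermat.Agent.S28.DG

variable (N : ℕ) [NeZero N] (ℓ : ℕ) [Fact ℓ.Prime]

namespace Charts

/-! ### evaluation of integer polynomials at `j` -/

/-- evaluation at `j` with coefficients in `ℤ_(ℓ)`. -/
def evR : Polynomial ℤ →+* LaurentSeries (Rl ℓ) :=
  (Polynomial.aeval (R := ℤ) (jqModC (Rl ℓ))).toRingHom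

theorem iotaL_jqModC : iotaL ℓ (jqModC (Rl ℓ)) = jq := by
  rw [iotaL, coeffMap_jqModC, jqModC_rat]

theorem redL_jqModC : redL ℓ (jqModC (Rl ℓ)) = jqModC (ZMod ℓ) := by
  rw [redL, coeffMap_jqModC]

theorem iotaL_jqNModC : iotaL ℓ (jqNModC (Rl ℓ) N) = qExpand ℚ N jq := by
  rw [iotaL, coeffMap_jqNModC]; rfl

theorem redL_jqNModC : redL ℓ (jqNModC (Rl ℓ) N) = jqNModC (ZMod ℓ) N := by
  rw [redL, coeffMap_jqNModC]

theorem iotaL_evR (p : Polynomial ℤ) : iotaL ℓ (evR ℓ p) = evalAtJ p := by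
  have : (iotaL ℓ).comp (evR ℓ) = evalAtJ := by
    refine Polynomial.ringHom_ext' (Subsingleton.elim _ _) ?_
    simp [evR, iotaL_jqModC]
  exact DFunLike.congr_fun this p

theorem redL_evR (p : Polynomial ℤ) :
    redL ℓ (evR ℓ p) =
      Polynomial.aeval (jqModC (ZMod ℓ)) (p.map (Int.castRingHom (ZMod ℓ))) := by
  have : (redL ℓ).comp (evR ℓ) =
      ((Polynomial.aeval (jqModC (ZMod ℓ))).toRingHom).comp
        (Polynomial.mapRingHom (Int.castRingHom (ZMod ℓ))) := by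
    refine Polynomial.ringHom_ext' (Subsingleton.elim _ _) ?_
    simp [evR, redL_jqModC]
  exact DFunLike.congr_fun this p

theorem evalAtJ_ne_zero {b : Polynomial ℤ} (hb : b ≠ 0) : evalAtJ b ≠ 0 := by
  intro h
  apply hb
  have h1 : Polynomial.aeval (jqModC ℚ) (b.map (Int.castRingHom ℚ)) = 0 := by
    have : evalAtJ = ((Polynomial.aeval (jqModC ℚ)).toRingHom).comp
        (Polynomial.mapRingHom (Int.castRingHom ℚ)) := by
      refine Polynomial.ringHom_ext' (Subsingleton.elim _ _) ?_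
      simp [jqModC_rat]
    rw [this] at h
    exact h
  have h2 := P2MW.S_ModularCurve_coeff_jqModC_neg_one.ModularCurve.CharLRows.aeval_jqModC_eq_zero ℚ h1
  exact Polynomial.map_injective _ Int.cast_injective (by simpa using h2)

theorem evR_ne_zero {b : Polynomial ℤ} (hb : b ≠ 0) : evR ℓ b ≠ 0 := by
  intro h
  apply evalAtJ_ne_zero hb
  rw [← iotaL_evR ℓ, h, map_zero]

/-! ### the charts lie in `Vring` -/

theorem coe_algebraMap_Rl (r : Rl ℓ) :
    ((algebraMap (Rl ℓ) ↥(modularFunctionFieldFull N) r : ↥(modularFunctionFieldFull N)) : LaurentSeries ℚ) = iotaL ℓ (HahnSeries.single 0 r) := by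
  rw [iotaL, coeffMap_single, ← algebraMap_apply_eq_single,
    IsScalarTower.algebraMap_apply (Rl ℓ) ℚ ↥(modularFunctionFieldFull N),
    eq_ratCast (algebraMap ℚ ↥(modularFunctionFieldFull N)),
    eq_ratCast (algebraMap ℚ (LaurentSeries ℚ))]
  push_cast
  rfl

theorem mem_range_iotaL_of_mem_adjoin {z : ↥(modularFunctionFieldFull N)}
    (hz : z ∈ Algebra.adjoin (Rl ℓ) ({jFull N} : Set ↥(modularFunctionFieldFull N))) :
    (z : LaurentSeries ℚ) ∈ (iotaL ℓ).range := by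
  induction hz using Algebra.adjoin_induction with
  | mem y hy =>
    rw [Set.mem_singleton_iff] at hy
    subst hy
    exact ⟨jqModC (Rl ℓ), iotaL_jqModC ℓ⟩
  | algebraMap r => exact ⟨_, (coe_algebraMap_Rl N ℓ r).symm⟩
  | add y z _ _ hy hz => exact add_mem hy hz
  | mul y z _ _ hy hz => exact mul_mem hy hz

theorem isIntegral_range_of_mem_chartAlgFin {x : ↥(modularFunctionFieldFull N)} (hx : x ∈ chartAlgFin N ℓ) :
    IsIntegral (iotaL ℓ).range (x : LaurentSeries ℚ) := by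
  rw [mem_chartAlg_iff] at hx
  let ψ : ↥(modularFunctionFieldFull N) →+* LaurentSeries ℚ := algebraMap ↥(modularFunctionFieldFull N) (LaurentSeries ℚ)
  let φ : ↥(Algebra.adjoin (Rl ℓ) ({jFull N} : Set ↥(modularFunctionFieldFull N))) →+* ↥(iotaL ℓ).range :=
    RingHom.codRestrict (ψ.comp (algebraMap _ ↥(modularFunctionFieldFull N))) (iotaL ℓ).range
      (fun z => mem_range_iotaL_of_mem_adjoin N ℓ z.2)
  exact hx.map_of_comp_eq φ ψ (by ext; rfl)

theorem sum_eq_iotaL {n : ℕ} (a : Fin n → Polynomial ℤ) :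
    ∑ i, evalAtJ (a i) * (qExpand ℚ N jq) ^ (i : ℕ) =
      iotaL ℓ (∑ i, evR ℓ (a i) * (jqNModC (Rl ℓ) N) ^ (i : ℕ)) := by
  simp only [map_sum, map_mul, map_pow, iotaL_evR, iotaL_jqNModC]

theorem mem_Vring_of_mem_chartAlgFin {n : ℕ} (h : DegreeData N ℓ n) {x : ↥(modularFunctionFieldFull N)}
    (hx : x ∈ chartAlgFin N ℓ) : (x : LaurentSeries ℚ) ∈ Vring ℓ := by
  obtain ⟨b, a, hb, hrel⟩ := h.span x x.2
  rw [sum_eq_iotaL N ℓ, ← iotaL_evR ℓ] at hrel
  exact mem_Vring_of_isIntegral ℓ _ _ _ (evR_ne_zero ℓ hb) hrel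
    (isIntegral_range_of_mem_chartAlgFin N ℓ hx)

theorem jq_mem_Vring : jq ∈ Vring ℓ := by
  rw [← iotaL_jqModC ℓ]; exact iotaL_mem_Vring ℓ _

theorem jq_inv_mem_Vring : jq⁻¹ ∈ Vring ℓ := by
  refine ⟨1, jqModC (Rl ℓ), ?_, ?_⟩
  · rw [redL_jqModC]; exact jqModC_ne_zero_of_nontrivial _
  · rw [iotaL_jqModC, map_one, mul_inv_cancel₀ jq_ne_zero]

theorem mem_Vring_of_mem_chartAlgMid {n : ℕ} (h : DegreeData N ℓ n) {x : ↥(modularFunctionFieldFull N)}
    (hx : x ∈ chartAlgMid N ℓ) : (x : LaurentSeries ℚ) ∈ Vring ℓ := by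
  have hz : x ∈ chartAlg N ℓ (insert (jFull N)⁻¹ {jFull N}) := by
    rw [show insert (jFull N)⁻¹ ({jFull N} : Set ↥(modularFunctionFieldFull N)) = {jFull N, (jFull N)⁻¹}
      from Set.pair_comm _ _]
    exact hx
  obtain ⟨m, hm⟩ := exists_pow_mul_mem_chartAlg (Set.mem_singleton _) (jFull_ne_zero N) hz
  have h1 := mem_Vring_of_mem_chartAlgFin N ℓ h hm
  have h2 : (x : LaurentSeries ℚ) = (jq⁻¹) ^ m * (((jFull N) ^ m * x : ↥(modularFunctionFieldFull N)) : LaurentSeries ℚ) := by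
    push_cast
    rw [coe_jFull, ← mul_assoc, ← mul_pow, inv_mul_cancel₀ jq_ne_zero, one_pow, one_mul]
  rw [h2]
  exact mul_mem (pow_mem (jq_inv_mem_Vring ℓ) m) h1

theorem mem_Vring_of_mem_chartAlgInf {n : ℕ} (h : DegreeData N ℓ n) {x : ↥(modularFunctionFieldFull N)}
    (hx : x ∈ chartAlgInf N ℓ) : (x : LaurentSeries ℚ) ∈ Vring ℓ :=
  mem_Vring_of_mem_chartAlgMid N ℓ h (chartAlg_mono N ℓ (sInf_subset N) hx)

/-- restriction of `redV` to a subalgebra of `F` contained in `Vring`. -/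
def redA (A : Subalgebra (Rl ℓ) ↥(modularFunctionFieldFull N)) (hA : ∀ x ∈ A, ((x : ↥(modularFunctionFieldFull N)) : LaurentSeries ℚ) ∈ Vring ℓ) :
    ↥A →+* LaurentSeries (ZMod ℓ) :=
  (redV ℓ).comp (RingHom.codRestrict
    ((algebraMap ↥(modularFunctionFieldFull N) (LaurentSeries ℚ)).comp A.val.toRingHom) (Vring ℓ) (fun x => hA x x.2))

theorem redA_apply (A : Subalgebra (Rl ℓ) ↥(modularFunctionFieldFull N))
    (hA : ∀ x ∈ A, ((x : ↥(modularFunctionFieldFull N)) : LaurentSeries ℚ) ∈ Vring ℓ) (x : ↥A) :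
    redA N ℓ A hA x = redV ℓ ⟨((x : ↥(modularFunctionFieldFull N)) : LaurentSeries ℚ), hA x x.2⟩ := rfl

theorem redV_jq : redV ℓ ⟨jq, jq_mem_Vring ℓ⟩ = jqModC (ZMod ℓ) := by
  have := redV_spec ℓ ⟨jq, jq_mem_Vring ℓ⟩ (jqModC (Rl ℓ)) 1 (by
    rw [map_one, one_mul, iotaL_jqModC])
  rwa [map_one, one_mul, redL_jqModC] at this

/-! ### the integrality lemma -/

theorem isIntegral_adjoin_iff (t : ↥(modularFunctionFieldFull N)) (z : ↥(modularFunctionFieldFull N)) :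
    letI : Algebra (Polynomial (Rl ℓ)) ↥(modularFunctionFieldFull N) :=
      (Polynomial.aeval t).toRingHom.toAlgebra
    IsIntegral (Algebra.adjoin (Rl ℓ) ({t} : Set ↥(modularFunctionFieldFull N))) z ↔
      IsIntegral (Polynomial (Rl ℓ)) z := by
  let _ : Algebra (Polynomial (Rl ℓ)) ↥(modularFunctionFieldFull N) :=
    (Polynomial.aeval t).toRingHom.toAlgebra
  let g : Polynomial (Rl ℓ) →+* ↥(Algebra.adjoin (Rl ℓ) ({t} : Set ↥(modularFunctionFieldFull N))) :=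
    RingHom.codRestrict (Polynomial.aeval t).toRingHom
      (Algebra.adjoin (Rl ℓ) ({t} : Set ↥(modularFunctionFieldFull N)))
      (fun p => Polynomial.aeval_mem_adjoin_singleton _ _)
  have hg : Function.Surjective g := by
    rintro ⟨y, hy⟩
    rw [Algebra.adjoin_singleton_eq_range_aeval] at hy
    obtain ⟨p, hp⟩ := hy
    exact ⟨p, Subtype.ext hp⟩
  constructor
  · rintro ⟨p, hmonic, hroot⟩
    have hlifts : p ∈ Polynomial.lifts g :=
      (Polynomial.lifts_iff_coeff_lifts p).mpr fun i => hg (p.coeff i)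
    obtain ⟨q, hq, -, hqmonic⟩ := Polynomial.lifts_and_natDegree_eq_and_monic hlifts hmonic
    refine ⟨q, hqmonic, ?_⟩
    rw [← hq, Polynomial.eval₂_map] at hroot
    exact hroot
  · intro hz
    exact hz.map_of_comp_eq g (RingHom.id _) (by ext <;> rfl)

theorem mem_chartAlg_of_mul_mem (t : ↥(modularFunctionFieldFull N))
    (ht : Function.Injective (Polynomial.aeval t : Polynomial (Rl ℓ) → ↥(modularFunctionFieldFull N)))
    (b : Polynomial (Rl ℓ)) (hb : ¬ Polynomial.C (ℓ : Rl ℓ) ∣ b) (y : ↥(modularFunctionFieldFull N))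
    (h1 : (ℓ : ↥(modularFunctionFieldFull N)) * y ∈ chartAlg N ℓ {t})
    (h2 : Polynomial.aeval t b * y ∈ chartAlg N ℓ {t}) : y ∈ chartAlg N ℓ {t} := by
  let _ : Algebra (Polynomial (Rl ℓ)) ↥(modularFunctionFieldFull N) :=
    (Polynomial.aeval t).toRingHom.toAlgebra
  have : FaithfulSMul (Polynomial (Rl ℓ)) ↥(modularFunctionFieldFull N) :=
    (faithfulSMul_iff_algebraMap_injective _ _).mpr ht
  rw [mem_chartAlg_iff, isIntegral_adjoin_iff] at h1 h2 ⊢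
  have hp : Prime (Polynomial.C (ℓ : Rl ℓ)) := Polynomial.prime_C_iff.mpr (prime_ell ℓ)
  refine isIntegral_of_smul_of_smul hp hb ?_ ?_
  · rw [Algebra.smul_def]
    convert h1 using 2
    show Polynomial.aeval t (Polynomial.C (ℓ : Rl ℓ)) = _
    simp
  · rw [Algebra.smul_def]
    exact h2

/-! ### transcendence of `j` and `j⁻¹` over `ℤ_(ℓ)` -/

theorem coe_aeval_jFull (p : Polynomial (Rl ℓ)) :
    ((Polynomial.aeval (jFull N) p : ↥(modularFunctionFieldFull N)) : LaurentSeries ℚ) =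
      iotaL ℓ (Polynomial.aeval (jqModC (Rl ℓ)) p) := by
  have : (algebraMap ↥(modularFunctionFieldFull N) (LaurentSeries ℚ)).comp
      (Polynomial.aeval (jFull N) : Polynomial (Rl ℓ) →ₐ[Rl ℓ] _).toRingHom =
      (iotaL ℓ).comp (Polynomial.aeval (jqModC (Rl ℓ)) : Polynomial (Rl ℓ) →ₐ[Rl ℓ] _).toRingHom := by
    refine Polynomial.ringHom_ext' (ringHom_Rl_ext ℓ _ _) ?_
    simp [iotaL_jqModC]
  exact DFunLike.congr_fun this p

theorem aeval_jFull_injective : Function.Injective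
    (Polynomial.aeval (jFull N) : Polynomial (Rl ℓ) → ↥(modularFunctionFieldFull N)) := by
  rw [injective_iff_map_eq_zero]
  intro p hp
  have h1 := coe_aeval_jFull N ℓ p
  rw [hp] at h1
  have h2 : Polynomial.aeval (jqModC (Rl ℓ)) p = 0 :=
    iotaL_injective ℓ (by rw [← h1, map_zero]; rfl)
  exact P2MW.S_ModularCurve_coeff_jqModC_neg_one.ModularCurve.CharLRows.aeval_jqModC_eq_zero _ h2

theorem aeval_jFull_inv_injective : Function.Injective
    (Polynomial.aeval (jFull N)⁻¹ : Polynomial (Rl ℓ) → ↥(modularFunctionFieldFull N)) := by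
  have h1 : Transcendental (Rl ℓ) (jFull N) :=
    transcendental_iff_injective.mpr (aeval_jFull_injective N ℓ)
  have h2 : Transcendental (Rl ℓ) (jFull N)⁻¹ := fun h => h1 (IsAlgebraic.inv_iff.mp h)
  exact transcendental_iff_injective.mp h2

/-! ### the kernel on the finite chart -/

theorem natCast_dvd_of_map_eq_zero {a : Polynomial ℤ}
    (ha : a.map (Int.castRingHom (ZMod ℓ)) = 0) : (ℓ : Polynomial ℤ) ∣ a := by
  rw [← Polynomial.C_eq_natCast, Polynomial.C_dvd_iff_dvd_coeff]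
  intro k
  have := congrArg (fun q => Polynomial.coeff q k) ha
  simp only [Polynomial.coeff_map, Polynomial.coeff_zero, eq_intCast] at this
  exact (ZMod.intCast_zmod_eq_zero_iff_dvd _ ℓ).mp this

theorem dvd_of_relation {n : ℕ} (h : DegreeData N ℓ n) (x : ↥(Vring ℓ)) (h0 : redV ℓ x = 0)
    (b : Polynomial ℤ) (a : Fin n → Polynomial ℤ)
    (hrel : evalAtJ b * (x : LaurentSeries ℚ) = ∑ i, evalAtJ (a i) * (qExpand ℚ N jq) ^ (i : ℕ)) :
    ∀ i, (ℓ : Polynomial ℤ) ∣ a i := by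
  rw [sum_eq_iotaL N ℓ, ← iotaL_evR ℓ] at hrel
  have h1 := redV_spec ℓ x _ _ hrel
  rw [h0, mul_zero] at h1
  simp only [map_sum, map_mul, map_pow, redL_evR, redL_jqNModC] at h1
  have h2 := h.indep (fun i => (a i).map (Int.castRingHom (ZMod ℓ))) h1.symm
  intro i
  exact natCast_dvd_of_map_eq_zero ℓ (congrFun h2 i)

theorem exists_reduced_relation {n : ℕ} (h : DegreeData N ℓ n) (x : ↥(Vring ℓ))
    (h0 : redV ℓ x = 0) (b₀ : Polynomial ℤ) (m : ℕ) : ∀ (a : Fin n → Polynomial ℤ),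
    evalAtJ ((ℓ : Polynomial ℤ) ^ m * b₀) * (x : LaurentSeries ℚ)
      = ∑ i, evalAtJ (a i) * (qExpand ℚ N jq) ^ (i : ℕ) →
    ∃ a' : Fin n → Polynomial ℤ, evalAtJ b₀ * (x : LaurentSeries ℚ)
      = (ℓ : LaurentSeries ℚ) * ∑ i, evalAtJ (a' i) * (qExpand ℚ N jq) ^ (i : ℕ) := by
  have : CharZero (LaurentSeries ℚ) :=
    charZero_of_injective_algebraMap (algebraMap ℚ (LaurentSeries ℚ)).injective
  have hℓ : (ℓ : LaurentSeries ℚ) ≠ 0 := Nat.cast_ne_zero.mpr (Fact.out : ℓ.Prime).ne_zero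
  induction m with
  | zero =>
    intro a hrel
    have hd := dvd_of_relation N ℓ h x h0 _ a hrel
    choose a' ha' using hd
    refine ⟨a', ?_⟩
    rw [pow_zero, one_mul] at hrel
    rw [hrel, Finset.mul_sum]
    refine Finset.sum_congr rfl fun i _ => ?_
    rw [ha' i, map_mul, map_natCast, mul_assoc]
  | succ m ih =>
    intro a hrel
    have hd := dvd_of_relation N ℓ h x h0 _ a hrel
    choose a' ha' using hd
    apply ih a'
    apply mul_left_cancel₀ hℓ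
    rw [Finset.mul_sum]
    calc (ℓ : LaurentSeries ℚ) * (evalAtJ ((ℓ : Polynomial ℤ) ^ m * b₀) * (x : LaurentSeries ℚ))
        = evalAtJ ((ℓ : Polynomial ℤ) ^ (m + 1) * b₀) * (x : LaurentSeries ℚ) := by
          rw [pow_succ', mul_assoc, map_mul evalAtJ (ℓ : Polynomial ℤ), map_natCast, mul_assoc]
      _ = ∑ i, evalAtJ (a i) * (qExpand ℚ N jq) ^ (i : ℕ) := hrel
      _ = _ := by
          refine Finset.sum_congr rfl fun i _ => ?_
          rw [ha' i, map_mul, map_natCast, mul_assoc]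

/-- evaluation of integer polynomials at `j`, in the function field. -/
def evF (p : Polynomial ℤ) : ↥(modularFunctionFieldFull N) :=
  Polynomial.aeval (jFull N) (p.map (Int.castRingHom (Rl ℓ)))

theorem coe_evF (p : Polynomial ℤ) : ((evF N ℓ p : ↥(modularFunctionFieldFull N)) : LaurentSeries ℚ)
    = evalAtJ p := by
  rw [evF, coe_aeval_jFull, ← iotaL_evR ℓ]
  congr 1
  have : ((Polynomial.aeval (jqModC (Rl ℓ)) : Polynomial (Rl ℓ) →ₐ[Rl ℓ] _).toRingHom).comp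
      (Polynomial.mapRingHom (Int.castRingHom (Rl ℓ))) = evR ℓ := by
    refine Polynomial.ringHom_ext' (Subsingleton.elim _ _) ?_
    simp [evR]
  exact DFunLike.congr_fun this p

theorem evF_mem_chartAlgFin (p : Polynomial ℤ) : evF N ℓ p ∈ chartAlgFin N ℓ :=
  adjoin_le_chartAlg N ℓ _ (Polynomial.aeval_mem_adjoin_singleton _ _)

theorem not_C_dvd_map {b₀ : Polynomial ℤ} (hb₀ : ¬ (ℓ : Polynomial ℤ) ∣ b₀) :
    ¬ Polynomial.C (ℓ : Rl ℓ) ∣ b₀.map (Int.castRingHom (Rl ℓ)) := by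
  rintro ⟨c, hc⟩
  apply hb₀
  apply natCast_dvd_of_map_eq_zero ℓ
  have h1 := congrArg (Polynomial.map (resR ℓ)) hc
  rw [Polynomial.map_map, Polynomial.map_mul, Polynomial.map_C, map_natCast, ZMod.natCast_self,
    Polynomial.C_0, zero_mul] at h1
  rw [← h1]
  congr 1
  exact Subsingleton.elim _ _

theorem ker_fin {n : ℕ} (h : DegreeData N ℓ n) (x : ↥(modularFunctionFieldFull N))
    (hxA : x ∈ chartAlgFin N ℓ) (hxV : (x : LaurentSeries ℚ) ∈ Vring ℓ)
    (h0 : redV ℓ ⟨x, hxV⟩ = 0) :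
    ∃ y ∈ chartAlgFin N ℓ, x = (ℓ : ↥(modularFunctionFieldFull N)) * y := by
  have hℓ : (ℓ : ↥(modularFunctionFieldFull N)) ≠ 0 :=
    Nat.cast_ne_zero.mpr (Fact.out : ℓ.Prime).ne_zero
  obtain ⟨b, a, hb, hrel⟩ := h.span x x.2
  have hnu : ¬ IsUnit (ℓ : Polynomial ℤ) := by
    rw [← Polynomial.C_eq_natCast]
    exact (Polynomial.prime_C_iff.mpr (Nat.prime_iff_prime_int.mp Fact.out)).not_isUnit
  obtain ⟨m, b₀, hb₀, rfl⟩ := WfDvdMonoid.max_power_factor' hb hnu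
  obtain ⟨a', ha'⟩ := exists_reduced_relation N ℓ h ⟨x, hxV⟩ h0 b₀ m a hrel
  set w : ↥(modularFunctionFieldFull N) := ∑ i, evF N ℓ (a' i) * (thetaFull N) ^ (i : ℕ) with hw
  have hwA : w ∈ chartAlgFin N ℓ :=
    sum_mem fun i _ => mul_mem (evF_mem_chartAlgFin N ℓ _) (pow_mem h.integral _)
  have hrelF : evF N ℓ b₀ * x = (ℓ : ↥(modularFunctionFieldFull N)) * w := by
    apply Subtype.ext
    rw [hw]
    push_cast
    simp only [coe_evF, coe_thetaFull]
    exact ha'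
  refine ⟨(ℓ : ↥(modularFunctionFieldFull N))⁻¹ * x, ?_, by rw [mul_inv_cancel_left₀ hℓ]⟩
  refine mem_chartAlg_of_mul_mem N ℓ (jFull N) (aeval_jFull_injective N ℓ)
    (b₀.map (Int.castRingHom (Rl ℓ))) (not_C_dvd_map ℓ hb₀) _ ?_ ?_
  · rw [mul_inv_cancel_left₀ hℓ]; exact hxA
  · have : Polynomial.aeval (jFull N) (b₀.map (Int.castRingHom (Rl ℓ))) *
        ((ℓ : ↥(modularFunctionFieldFull N))⁻¹ * x) = w := by
      have h3 : Polynomial.aeval (jFull N) (b₀.map (Int.castRingHom (Rl ℓ))) * x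
          = (ℓ : ↥(modularFunctionFieldFull N)) * w := hrelF
      rw [mul_left_comm, h3, inv_mul_cancel_left₀ hℓ]
    rw [this]; exact hwA

/-! ### the kernel on the other two charts -/

theorem jFull_inv_mem_chartAlgMid : (jFull N)⁻¹ ∈ chartAlgMid N ℓ :=
  subset_chartAlg N ℓ _ (by simp)

theorem ker_mid {n : ℕ} (h : DegreeData N ℓ n) (x : ↥(modularFunctionFieldFull N))
    (hxA : x ∈ chartAlgMid N ℓ) (hxV : (x : LaurentSeries ℚ) ∈ Vring ℓ)
    (h0 : redV ℓ ⟨x, hxV⟩ = 0) :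
    ∃ y ∈ chartAlgMid N ℓ, x = (ℓ : ↥(modularFunctionFieldFull N)) * y := by
  have hz : x ∈ chartAlg N ℓ (insert (jFull N)⁻¹ {jFull N}) := by
    rw [show insert (jFull N)⁻¹ ({jFull N} : Set ↥(modularFunctionFieldFull N))
      = {jFull N, (jFull N)⁻¹} from Set.pair_comm _ _]
    exact hxA
  obtain ⟨m, hm⟩ := exists_pow_mul_mem_chartAlg (Set.mem_singleton _) (jFull_ne_zero N) hz
  have hmV := mem_Vring_of_mem_chartAlgFin N ℓ h hm
  have h1 : redV ℓ ⟨(((jFull N) ^ m * x : ↥(modularFunctionFieldFull N)) : LaurentSeries ℚ), hmV⟩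
      = 0 := by
    have : (⟨(((jFull N) ^ m * x : ↥(modularFunctionFieldFull N)) : LaurentSeries ℚ), hmV⟩ :
        ↥(Vring ℓ)) = ⟨jq, jq_mem_Vring ℓ⟩ ^ m * ⟨x, hxV⟩ := by
      apply Subtype.ext
      push_cast
      rfl
    rw [this, map_mul, h0, mul_zero]
  obtain ⟨y, hy, hxy⟩ := ker_fin N ℓ h _ hm hmV h1
  refine ⟨((jFull N)⁻¹) ^ m * y, mul_mem (pow_mem (jFull_inv_mem_chartAlgMid N ℓ) m)
    (chartAlg_mono N ℓ (sFin_subset N) hy), ?_⟩
  rw [mul_left_comm, ← hxy, ← mul_assoc, ← mul_pow, inv_mul_cancel₀ (jFull_ne_zero N), one_pow,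
    one_mul]

theorem not_C_dvd_X_pow (m : ℕ) : ¬ Polynomial.C (ℓ : Rl ℓ) ∣ (Polynomial.X ^ m : Polynomial (Rl ℓ)) := by
  rw [Polynomial.C_dvd_iff_dvd_coeff]
  intro hd
  have := hd m
  rw [Polynomial.coeff_X_pow_self] at this
  exact (prime_ell ℓ).not_isUnit (isUnit_of_dvd_one this)

theorem ker_inf {n : ℕ} (h : DegreeData N ℓ n) (x : ↥(modularFunctionFieldFull N))
    (hxA : x ∈ chartAlgInf N ℓ) (hxV : (x : LaurentSeries ℚ) ∈ Vring ℓ)
    (h0 : redV ℓ ⟨x, hxV⟩ = 0) :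
    ∃ y ∈ chartAlgInf N ℓ, x = (ℓ : ↥(modularFunctionFieldFull N)) * y := by
  obtain ⟨z, hz, hxz⟩ := ker_mid N ℓ h x (chartAlg_mono N ℓ (sInf_subset N) hxA) hxV h0
  have hz' : z ∈ chartAlg N ℓ (insert (jFull N)⁻¹⁻¹ {(jFull N)⁻¹}) := by
    rw [inv_inv]; exact hz
  obtain ⟨m, hm⟩ := exists_pow_mul_mem_chartAlg (Set.mem_singleton _)
    (inv_ne_zero (jFull_ne_zero N)) hz'
  refine ⟨z, ?_, hxz⟩
  refine mem_chartAlg_of_mul_mem N ℓ (jFull N)⁻¹ (aeval_jFull_inv_injective N ℓ)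
    (Polynomial.X ^ m) (not_C_dvd_X_pow ℓ m) _ ?_ ?_
  · rw [← hxz]; exact hxA
  · rw [map_pow, Polynomial.aeval_X]; exact hm

end Charts

open Charts

/-- finite chart: reduction of `q`-expansions `A_fin → 𝔽_ℓ((q))` with kernel `ℓ A_fin`. -/
theorem exists_chartFin_hom {n : ℕ} (h : DegreeData N ℓ n) :
    ∃ φ : ↥(chartAlgFin N ℓ) →+* LaurentSeries (ZMod ℓ),
      φ (jChartFin N ℓ) = jqModC (ZMod ℓ) ∧
      ∀ x, φ x = 0 → ∃ y, x = (ℓ : ↥(chartAlgFin N ℓ)) * y := by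
  refine ⟨redA N ℓ (chartAlgFin N ℓ) (fun x hx => mem_Vring_of_mem_chartAlgFin N ℓ h hx),
    redV_jq ℓ, ?_⟩
  intro x hx
  obtain ⟨y, hy, hxy⟩ := ker_fin N ℓ h x x.2 _ hx
  exact ⟨⟨y, hy⟩, Subtype.ext (by rw [hxy]; push_cast; rfl)⟩

/-- overlap chart. -/
theorem exists_chartMid_hom {n : ℕ} (h : DegreeData N ℓ n) :
    ∃ φ : ↥(chartAlgMid N ℓ) →+* LaurentSeries (ZMod ℓ),
      ∀ x, φ x = 0 → ∃ y, x = (ℓ : ↥(chartAlgMid N ℓ)) * y := by
  refine ⟨redA N ℓ (chartAlgMid N ℓ) (fun x hx => mem_Vring_of_mem_chartAlgMid N ℓ h hx), ?_⟩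
  intro x hx
  obtain ⟨y, hy, hxy⟩ := ker_mid N ℓ h x x.2 _ hx
  exact ⟨⟨y, hy⟩, Subtype.ext (by rw [hxy]; push_cast; rfl)⟩

/-- chart at infinity. -/
theorem exists_chartInf_hom {n : ℕ} (h : DegreeData N ℓ n) :
    ∃ φ : ↥(chartAlgInf N ℓ) →+* LaurentSeries (ZMod ℓ),
      ∀ x, φ x = 0 → ∃ y, x = (ℓ : ↥(chartAlgInf N ℓ)) * y := by
  refine ⟨redA N ℓ (chartAlgInf N ℓ) (fun x hx => mem_Vring_of_mem_chartAlgInf N ℓ h hx), ?_⟩
  intro x hx
  obtain ⟨y, hy, hxy⟩ := ker_inf N ℓ h x x.2 _ hx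
  exact ⟨⟨y, hy⟩, Subtype.ext (by rw [hxy]; push_cast; rfl)⟩

end Fermat.Agent.S28.DG
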