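import Fermat.Agent.S28.DG.Basic

/-!
# S28: the coefficient ring `O` = integral closure of `ℤ_(ℓ)` in `ℂ`, and a residue field of char. `ℓ`
-/

set_option autoImplicit false
noncomputable section

namespace Fermat.Agent.S28.DG

/-- The coefficient ring: all complex numbers integral over `ℤ_(ℓ)`. -/
abbrev Ocl (ℓ : ℕ) : Type := ↥(integralClosure (Rl ℓ) ℂ)

/-- `ℓ` is not a unit of `ℤ_(ℓ)`. -/
theorem Ocl.not_isUnit_ell_Rl (ℓ : ℕ) [Fact ℓ.Prime] : ¬ IsUnit (ℓ : Rl ℓ) := by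
  intro h
  obtain ⟨y, hy⟩ := h.exists_right_inv
  have hℓ : (ℓ : ℚ) ≠ 0 := by exact_mod_cast (Fact.out : ℓ.Prime).ne_zero
  have h1 : (ℓ : ℚ) * (y : ℚ) = 1 := by
    have := congrArg (Subtype.val) hy
    simpa using this
  have h2 : (y : ℚ) = (ℓ : ℚ)⁻¹ := by
    field_simp
    linarith
  have h3 : (y : ℚ).den.Coprime ℓ := y.2
  rw [h2] at h3
  have h4 : ((ℓ : ℚ)⁻¹).den = ℓ := by
    rw [Rat.inv_natCast_den_of_pos (Fact.out : ℓ.Prime).pos]
  rw [h4, Nat.coprime_self] at h3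
  exact (Fact.out : ℓ.Prime).one_lt.ne' h3

/-- There is a surjection from `O` onto a field of characteristic `ℓ`. -/
theorem exists_residue (ℓ : ℕ) [Fact ℓ.Prime] :
    ∃ (k : Type) (_ : Field k) (_ : CharP k ℓ) (π : Ocl ℓ →+* k), Function.Surjective π := by
  obtain ⟨P, hPmax, hP⟩ := exists_max_ideal_of_mem_nonunits
    (show (ℓ : Rl ℓ) ∈ nonunits (Rl ℓ) from Ocl.not_isUnit_ell_Rl ℓ)
  have hinj : Function.Injective (algebraMap (Rl ℓ) (Ocl ℓ)) := by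
    intro a b hab
    have h1 : (algebraMap (Rl ℓ) ℂ a) = algebraMap (Rl ℓ) ℂ b := by
      have := congrArg (Subtype.val) hab
      simpa using this
    have h2 : ((a : ℚ) : ℂ) = ((b : ℚ) : ℂ) := h1
    exact Subtype.ext (by exact_mod_cast h2)
  obtain ⟨Q, hQmax, hQ⟩ := Ideal.exists_ideal_over_maximal_of_isIntegral (S := Ocl ℓ) P
    (by rw [(RingHom.injective_iff_ker_eq_bot _).mp hinj]; exact bot_le)
  let _ : Field (Ocl ℓ ⧸ Q) := Ideal.Quotient.field Q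
  have hℓQ : (ℓ : Ocl ℓ) ∈ Q := by
    have : (ℓ : Rl ℓ) ∈ Q.comap (algebraMap (Rl ℓ) (Ocl ℓ)) := hQ ▸ hP
    simpa using this
  have hchar : CharP (Ocl ℓ ⧸ Q) ℓ := by
    have h0 : ((ℓ : ℕ) : Ocl ℓ ⧸ Q) = 0 := by
      have := Ideal.Quotient.eq_zero_iff_mem.mpr hℓQ
      simpa using this
    exact (CharP.charP_iff_prime_eq_zero (Fact.out : ℓ.Prime)).mpr h0
  exact ⟨Ocl ℓ ⧸ Q, inferInstance, hchar, Ideal.Quotient.mk Q, Ideal.Quotient.mk_surjective⟩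

end Fermat.Agent.S28.DG
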