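import Fermat.Agent.S28.DG.AbstractMain
import Fermat.Agent.S28.DG.Analytic.Main

/-!
# S28: from the abstract theorem (over `O ⊆ ℂ`, variable `q_N`) down to `ℚ((q))` and `𝔽_ℓ((q))`
-/

set_option autoImplicit false
open ModularCurve ModularCurve.IgusaScheme
noncomputable section

namespace Fermat.Agent.S28.DG

namespace Descent

/-! ## Generalities on `aeval`, `coeffMap`, `qExpand` -/

/-- ring homs commuting with the structure maps commute with `aeval`. -/
theorem hom_aeval_of_comp {R S A B : Type*} [CommRing R] [CommRing S] [CommRing A] [CommRing B]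
    [Algebra R A] [Algebra S B] (f : R →+* S) (Ψ : A →+* B)
    (h : ∀ r, Ψ (algebraMap R A r) = algebraMap S B (f r)) (x : A) (p : Polynomial R) :
    Ψ (Polynomial.aeval x p) = Polynomial.aeval (Ψ x) (p.map f) := by
  rw [Polynomial.aeval_def, Polynomial.aeval_def, Polynomial.hom_eval₂, Polynomial.eval₂_map]
  congr 1
  ext r; exact h r

theorem algebraMap_laurent {R A : Type*} [CommRing R] [CommRing A] [Algebra R A] (r : R) :
    algebraMap R (LaurentSeries A) r = HahnSeries.C (algebraMap R A r) := by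
  rw [HahnSeries.algebraMap_apply', PowerSeries.algebraMap_apply, HahnSeries.ofPowerSeries_C]

theorem coeffMap_C {A B : Type*} [CommRing A] [CommRing B] (f : A →+* B) (r : A) :
    coeffMap f (HahnSeries.C r) = HahnSeries.C (f r) := by
  rw [HahnSeries.C_apply, coeffMap_single, HahnSeries.C_apply]

theorem qExpand_algebraMap' {R A : Type*} [CommRing R] [CommRing A]
    [Algebra R A] (N : ℕ) [NeZero N] (r : R) :
    qExpand A N (algebraMap R (LaurentSeries A) r) = algebraMap R (LaurentSeries A) r := by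
  rw [algebraMap_laurent, qExpand_C]

theorem qExpand_aeval {R A : Type*} [CommRing R] [CommRing A]
    [Algebra R A] (N : ℕ) [NeZero N] (x : LaurentSeries A) (p : Polynomial R) :
    qExpand A N (Polynomial.aeval x p) = Polynomial.aeval (qExpand A N x) p := by
  have := hom_aeval_of_comp (RingHom.id R) (qExpand A N) (fun r => qExpand_algebraMap' N r) x p
  simpa using this

theorem coeffMap_aeval {A B : Type*} [CommRing A] [CommRing B]
    (f : A →+* B) (x : LaurentSeries A) (p : Polynomial A) :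
    coeffMap f (Polynomial.aeval x p) = Polynomial.aeval (coeffMap f x) (p.map f) := by
  refine hom_aeval_of_comp f (coeffMap f) (fun r => ?_) x p
  rw [algebraMap_laurent, algebraMap_laurent, coeffMap_C]
  rfl

theorem aeval_map_algebraMap_laurent {R A : Type*} [CommRing R] [CommRing A] [Algebra R A]
    (x : LaurentSeries A) (p : Polynomial R) :
    Polynomial.aeval x (p.map (algebraMap R A)) = Polynomial.aeval x p := by
  have := hom_aeval_of_comp (algebraMap R A) (RingHom.id (LaurentSeries A))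
    (fun r => by
      rw [algebraMap_laurent, algebraMap_laurent]; rfl) x p
  simpa using this.symm

theorem coeffMap_injective {A B : Type*} [CommRing A] [CommRing B] (f : A →+* B)
    (hf : Function.Injective f) : Function.Injective (coeffMap f) := by
  intro x y hxy
  ext k
  apply hf
  rw [← coeffMap_coeff, ← coeffMap_coeff, hxy]

/-! ## Part 3: independence mod `ℓ` -/

/-- Part 3: independence descends from `k` to `𝔽_ℓ`. -/
theorem indep_of_indep (N : ℕ) [NeZero N] (ℓ : ℕ) [Fact ℓ.Prime] (n : ℕ)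
    (k : Type) [Field k] [CharP k ℓ]
    (h : ∀ a : Fin n → Polynomial k,
        ∑ i, Polynomial.aeval (qExpand k N (jqModC k)) (a i) *
          (qExpand k N (qExpand k N (jqModC k))) ^ (i : ℕ) = 0 → a = 0)
    (a : Fin n → Polynomial (ZMod ℓ))
    (ha : ∑ i, Polynomial.aeval (jqModC (ZMod ℓ)) (a i) * (jqNModC (ZMod ℓ) N) ^ (i : ℕ) = 0) :
    a = 0 := by
  let φ : ZMod ℓ →+* k := ZMod.castHom (dvd_refl ℓ) k
  have hφ : Function.Injective φ := φ.injective
  have h1 := h (fun i => (a i).map φ) ?_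
  · funext i
    have h2 := congrFun h1 i
    simp only [Pi.zero_apply] at h2 ⊢
    exact (Polynomial.map_eq_zero_iff hφ).mp h2
  · have h3 := congrArg (fun y => qExpand k N (coeffMap φ y)) ha
    simp only [map_sum, map_mul, map_pow, map_zero, coeffMap_aeval, qExpand_aeval,
      coeffMap_jqModC, coeffMap_jqNModC] at h3
    exact h3

/-! ## Part 1: integrality -/

/-- a root of a monic polynomial over `O[j]`, `O` integral over `R`, is a root of a monic
polynomial over `R[j]`. -/
theorem exists_monic_of_integral_coeffs {R O B : Type*} [CommRing R] [CommRing O] [CommRing B]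
    [Algebra R O] [Algebra O B] [Algebra R B] [Algebra.IsIntegral R O]
    (hROB : ∀ r : R, algebraMap R B r = algebraMap O B (algebraMap R O r))
    (j θ : B) (Φ : Polynomial (Polynomial O)) (hΦ : Φ.Monic)
    (h : Φ.eval₂ (Polynomial.aeval j).toRingHom θ = 0) :
    ∃ P : Polynomial (Polynomial R), P.Monic ∧
      P.eval₂ (Polynomial.aeval (R := R) j).toRingHom θ = 0 := by
  have : IsScalarTower R O B := IsScalarTower.of_algebraMap_eq hROB
  let _ : Algebra (Polynomial R) B := (Polynomial.aeval (R := R) j).toRingHom.toAlgebra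
  have : IsScalarTower R (Polynomial R) B := IsScalarTower.of_algebraMap_eq (fun r => by
    show algebraMap R B r = Polynomial.aeval j (Polynomial.C r)
    simp)
  let T := integralClosure (Polynomial R) B
  have hconst : ∀ r : O, algebraMap O B r ∈ T := fun r =>
    ((Algebra.IsIntegral.isIntegral (R := R) r).algebraMap (B := B)).tower_top
  have hj : j ∈ T := by
    have : j = algebraMap (Polynomial R) B Polynomial.X := by
      show j = Polynomial.aeval j Polynomial.X
      simp
    rw [this]; exact isIntegral_algebraMap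
  have hmem : ∀ p : Polynomial O, Polynomial.aeval j p ∈ T := by
    intro p
    induction p using Polynomial.induction_on' with
    | add p q hp hq => rw [map_add]; exact add_mem hp hq
    | monomial n a => rw [Polynomial.aeval_monomial]; exact mul_mem (hconst a) (pow_mem hj n)
  let h' : Polynomial O →+* T := (Polynomial.aeval j).toRingHom.codRestrict T hmem
  have hint : IsIntegral T θ := ⟨Φ.map h', hΦ.map _, by
    rw [Polynomial.eval₂_map]
    exact h⟩
  exact isIntegral_trans θ hint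

/-- the embedding `ℚ((q)) → ℂ((q_N))`, `q ↦ q_N^N`. -/
def iota (N : ℕ) [NeZero N] : LaurentSeries ℚ →+* LaurentSeries ℂ :=
  (qExpand ℂ N).comp (coeffMap (algebraMap ℚ ℂ))

theorem iota_apply (N : ℕ) [NeZero N] (x : LaurentSeries ℚ) :
    iota N x = qExpand ℂ N (coeffMap (algebraMap ℚ ℂ) x) := rfl

theorem iota_injective (N : ℕ) [NeZero N] : Function.Injective (iota N) :=
  (qExpand_injective N).comp (coeffMap_injective _ (algebraMap ℚ ℂ).injective)

theorem iota_jq (N : ℕ) [NeZero N] : iota N jq = qExpand ℂ N (jqModC ℂ) := by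
  rw [iota_apply, ← jqModC_rat, coeffMap_jqModC]

theorem iota_qExpand_jq (N d : ℕ) [NeZero N] [NeZero d] :
    iota N (qExpand ℚ d jq) = qExpand ℂ N (qExpand ℂ d (jqModC ℂ)) := by
  rw [iota_apply, ← jqModC_rat, coeffMap_qExpand, coeffMap_jqModC]

/-- Part 1: integrality of `θ` over `ℤ_(ℓ)[j]`. -/
theorem integral_of_monic (N : ℕ) [NeZero N] (ℓ : ℕ) [Fact ℓ.Prime]
    (O : Type) [CommRing O] [Algebra (Rl ℓ) O] [Algebra.IsIntegral (Rl ℓ) O] [Algebra O ℂ]
    (hO : ∀ r : Rl ℓ, algebraMap O ℂ (algebraMap (Rl ℓ) O r) = algebraMap ℚ ℂ (r : ℚ))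
    (Φ : Polynomial (Polynomial O)) (hΦ : Φ.Monic)
    (h : Φ.eval₂ (Polynomial.aeval (qExpand O N (jqModC O))).toRingHom
          (qExpand O N (qExpand O N (jqModC O))) = 0) :
    thetaFull N ∈ chartAlgFin N ℓ := by
  obtain ⟨P, hP, hP0⟩ := exists_monic_of_integral_coeffs (R := Rl ℓ)
    (fun r => by rw [algebraMap_laurent, algebraMap_laurent]; rfl) _ _ Φ hΦ h
  let κ : ↥(modularFunctionFieldFull N) →+* LaurentSeries ℂ :=
    (iota N).comp (algebraMap ↥(modularFunctionFieldFull N) (LaurentSeries ℚ))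
  have hκ : Function.Injective κ := κ.injective
  let α : LaurentSeries O →+* LaurentSeries ℂ := coeffMap (algebraMap O ℂ)
  have hθ : α (qExpand O N (qExpand O N (jqModC O))) = κ (thetaFull N) := by
    show coeffMap _ _ = iota N (qExpand ℚ N jq)
    rw [iota_qExpand_jq, coeffMap_qExpand, coeffMap_qExpand, coeffMap_jqModC]
  have hhom : α.comp (Polynomial.aeval (R := Rl ℓ) (qExpand O N (jqModC O))).toRingHom
      = κ.comp (Polynomial.aeval (R := Rl ℓ) (jFull N)).toRingHom := by
    refine Polynomial.ringHom_ext (fun r => ?_) ?_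
    · show coeffMap _ (Polynomial.aeval _ (Polynomial.C r)) =
        κ (Polynomial.aeval (jFull N) (Polynomial.C r))
      rw [Polynomial.aeval_C, Polynomial.aeval_C, algebraMap_laurent, coeffMap_C, hO]
      have h2 : algebraMap (Rl ℓ) ↥(modularFunctionFieldFull N) r =
          algebraMap ℚ ↥(modularFunctionFieldFull N) (r : ℚ) := rfl
      have h4 : κ.comp (algebraMap ℚ ↥(modularFunctionFieldFull N)) =
          (HahnSeries.C).comp (algebraMap ℚ ℂ) := Subsingleton.elim _ _
      rw [h2]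
      exact (RingHom.congr_fun h4 (r : ℚ)).symm
    · show coeffMap _ (Polynomial.aeval _ Polynomial.X) =
        iota N ((Polynomial.aeval (jFull N) Polynomial.X :
          ↥(modularFunctionFieldFull N)) : LaurentSeries ℚ)
      rw [Polynomial.aeval_X, Polynomial.aeval_X, coe_jFull, iota_jq, coeffMap_qExpand,
        coeffMap_jqModC]
  have h0 : P.eval₂ (Polynomial.aeval (R := Rl ℓ) (jFull N)).toRingHom (thetaFull N) = 0 := by
    apply hκ
    rw [Polynomial.hom_eval₂, map_zero, ← hhom, ← hθ, ← Polynomial.hom_eval₂, hP0, map_zero]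
  rw [mem_chartAlg_iff]
  let h' : Polynomial (Rl ℓ) →+* Algebra.adjoin (Rl ℓ) {jFull N} :=
    (Polynomial.aeval (R := Rl ℓ) (jFull N)).toRingHom.codRestrict _
      (fun p => Polynomial.aeval_mem_adjoin_singleton _ _)
  exact ⟨P.map h', hP.map _, by rw [Polynomial.eval₂_map]; exact h0⟩

/-! ## Part 2: spanning -/

/-- apply a `ℚ`-linear functional to the coefficients of a polynomial. -/
def lamP (μ : ℂ →ₗ[ℚ] ℚ) : Polynomial ℂ →ₗ[ℚ] Polynomial ℚ :=
  Polynomial.lsum (fun s => (Polynomial.monomial s : ℚ →ₗ[ℚ] Polynomial ℚ).comp μ)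

theorem lamP_monomial (μ : ℂ →ₗ[ℚ] ℚ) (s : ℕ) (c : ℂ) :
    lamP μ (Polynomial.monomial s c) = Polynomial.monomial s (μ c) := by
  rw [lamP, Polynomial.lsum_apply, Polynomial.sum_monomial_index]
  · rfl
  · simp

theorem lamP_coeff (μ : ℂ →ₗ[ℚ] ℚ) (p : Polynomial ℂ) (s : ℕ) :
    (lamP μ p).coeff s = μ (p.coeff s) := by
  induction p using Polynomial.induction_on' with
  | add p q hp hq => rw [map_add, Polynomial.coeff_add, Polynomial.coeff_add, map_add, hp, hq]
  | monomial t c =>
    rw [lamP_monomial, Polynomial.coeff_monomial, Polynomial.coeff_monomial, apply_ite μ, map_zero]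

/-- apply a `ℚ`-linear functional to the coefficients of a Laurent series. -/
def lamS (μ : ℂ →ₗ[ℚ] ℚ) : LaurentSeries ℂ →+ LaurentSeries ℚ where
  toFun y := y.map μ
  map_zero' := by ext; simp
  map_add' y z := by ext; simp

theorem lamS_coeff (μ : ℂ →ₗ[ℚ] ℚ) (y : LaurentSeries ℂ) (k : ℤ) :
    (lamS μ y).coeff k = μ (y.coeff k) := rfl

theorem lamS_aeval_mul (μ : ℂ →ₗ[ℚ] ℚ) (w u : LaurentSeries ℚ) (p : Polynomial ℂ) :
    lamS μ (Polynomial.aeval (coeffMap (algebraMap ℚ ℂ) w) p * coeffMap (algebraMap ℚ ℂ) u) =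
      Polynomial.aeval w (lamP μ p) * u := by
  induction p using Polynomial.induction_on' with
  | add p q hp hq => rw [map_add, add_mul, map_add, hp, hq, map_add, map_add, add_mul]
  | monomial s c =>
    rw [lamP_monomial, Polynomial.aeval_monomial, Polynomial.aeval_monomial, algebraMap_laurent,
      algebraMap_laurent, ← map_pow, mul_assoc, mul_assoc, ← map_mul, HahnSeries.C_mul_eq_smul,
      HahnSeries.C_mul_eq_smul]
    ext k
    rw [lamS_coeff, HahnSeries.coeff_smul, HahnSeries.coeff_smul, coeffMap_coeff]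
    simp only [Algebra.algebraMap_self_apply, smul_eq_mul]
    have : c * (algebraMap ℚ ℂ) ((w ^ s * u).coeff k) = ((w ^ s * u).coeff k) • c := by
      rw [Algebra.smul_def, mul_comm]
    rw [this, map_smul, smul_eq_mul, mul_comm]

theorem exists_lamP_ne_zero (p : Polynomial ℂ) (hp : p ≠ 0) : ∃ μ : ℂ →ₗ[ℚ] ℚ, lamP μ p ≠ 0 := by
  obtain ⟨s, hs⟩ : ∃ s, p.coeff s ≠ 0 := by
    by_contra hcon
    exact hp (Polynomial.ext (fun s => by
      rw [Polynomial.coeff_zero]
      by_contra hs
      exact hcon ⟨s, hs⟩))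
  obtain ⟨μ, hμ⟩ : ∃ μ : ℂ →ₗ[ℚ] ℚ, μ (p.coeff s) ≠ 0 := by
    by_contra hcon
    exact hs ((Module.forall_dual_apply_eq_zero_iff ℚ (p.coeff s)).mp (fun μ => by
      by_contra hμ
      exact hcon ⟨μ, hμ⟩))
  refine ⟨μ, fun h0 => hμ ?_⟩
  rw [← lamP_coeff, h0, Polynomial.coeff_zero]

/-- descent of a linear relation from `ℂ[X]`-coefficients to `ℚ[X]`-coefficients. -/
theorem descend_rat (n : ℕ) (w x θ : LaurentSeries ℚ) (b : Polynomial ℂ) (a : Fin n → Polynomial ℂ)
    (hb : b ≠ 0)
    (h : Polynomial.aeval (coeffMap (algebraMap ℚ ℂ) w) b * coeffMap (algebraMap ℚ ℂ) x =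
      ∑ i, Polynomial.aeval (coeffMap (algebraMap ℚ ℂ) w) (a i) *
        (coeffMap (algebraMap ℚ ℂ) θ) ^ (i : ℕ)) :
    ∃ (b' : Polynomial ℚ) (a' : Fin n → Polynomial ℚ), b' ≠ 0 ∧
      Polynomial.aeval w b' * x = ∑ i, Polynomial.aeval w (a' i) * θ ^ (i : ℕ) := by
  obtain ⟨μ, hμ⟩ := exists_lamP_ne_zero b hb
  refine ⟨lamP μ b, fun i => lamP μ (a i), hμ, ?_⟩
  have h1 := congrArg (lamS μ) h
  rw [lamS_aeval_mul, map_sum] at h1
  rw [h1]
  refine Finset.sum_congr rfl (fun i _ => ?_)
  rw [← map_pow, lamS_aeval_mul]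

theorem exists_common_denom {ι : Type*} [Fintype ι] (f : ι → Polynomial ℚ) :
    ∃ m : ℤ, m ≠ 0 ∧ ∀ i, ∃ q : Polynomial ℤ,
      q.map (Int.castRingHom ℚ) = Polynomial.C (m : ℚ) * f i := by
  classical
  have h1 : ∀ i, ∃ m : ℤ, m ≠ 0 ∧ ∃ q : Polynomial ℤ,
      q.map (Int.castRingHom ℚ) = Polynomial.C (m : ℚ) * f i := by
    intro i
    obtain ⟨b, hb, hq⟩ := IsLocalization.integerNormalization_spec (nonZeroDivisors ℤ) (f i)
    refine ⟨b, nonZeroDivisors.ne_zero hb,
      IsLocalization.integerNormalization (nonZeroDivisors ℤ) (f i), ?_⟩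
    rw [show Int.castRingHom ℚ = algebraMap ℤ ℚ from rfl, hq]
    ext s
    simp
  choose m hm q hq using h1
  refine ⟨∏ i, m i, Finset.prod_ne_zero_iff.mpr (fun i _ => hm i), fun i => ?_⟩
  refine ⟨Polynomial.C (∏ j ∈ Finset.univ.erase i, m j) * q i, ?_⟩
  rw [Polynomial.map_mul, hq, Polynomial.map_C, ← mul_assoc, ← Polynomial.C_mul,
    ← Finset.mul_prod_erase Finset.univ m (Finset.mem_univ i)]
  congr 2
  simp [mul_comm]

theorem aeval_map_intCast (q : Polynomial ℤ) :
    Polynomial.aeval jq (q.map (Int.castRingHom ℚ)) = evalAtJ q := by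
  show _ = Polynomial.aeval jq q
  rw [Polynomial.aeval_def, Polynomial.aeval_def, Polynomial.eval₂_map]
  congr 1
  exact Subsingleton.elim _ _

/-- clearing denominators. -/
theorem clear_denoms (n : ℕ) (x θ : LaurentSeries ℚ) (b : Polynomial ℚ)
    (a : Fin n → Polynomial ℚ) (hb : b ≠ 0)
    (h : Polynomial.aeval jq b * x = ∑ i, Polynomial.aeval jq (a i) * θ ^ (i : ℕ)) :
    ∃ (b' : Polynomial ℤ) (a' : Fin n → Polynomial ℤ), b' ≠ 0 ∧
      evalAtJ b' * x = ∑ i, evalAtJ (a' i) * θ ^ (i : ℕ) := by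
  obtain ⟨m, hm, hq⟩ := exists_common_denom (fun o : Option (Fin n) => o.elim b a)
  choose q hq using hq
  have hm' : Polynomial.C (m : ℚ) ≠ 0 := by
    rw [Ne, Polynomial.C_eq_zero]
    exact_mod_cast hm
  refine ⟨q none, fun i => q (some i), ?_, ?_⟩
  · intro h0
    have h1 := hq none
    rw [h0, Polynomial.map_zero] at h1
    exact mul_ne_zero hm' hb h1.symm
  · simp only [← aeval_map_intCast, hq, Option.elim, map_mul, mul_assoc]
    rw [h, Finset.mul_sum]

/-- the function field lands in any subfield of `ℂ((q_N))` containing the `j_d`. -/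
theorem iota_mem (N : ℕ) [NeZero N] (S : Subfield (LaurentSeries ℂ))
    (hS : ∀ (d : ℕ) [NeZero d], d ∣ N → qExpand ℂ N (qExpand ℂ d (jqModC ℂ)) ∈ S)
    (x : LaurentSeries ℚ) (hx : x ∈ modularFunctionFieldFull N) : iota N x ∈ S := by
  rw [modularFunctionFieldFull] at hx
  induction hx using IntermediateField.adjoin_induction with
  | mem y hy =>
    obtain ⟨d, hd0, hd, rfl⟩ := hy
    rw [iota_qExpand_jq]
    exact hS d hd
  | algebraMap r =>
    have h4 : (iota N).comp (algebraMap ℚ (LaurentSeries ℚ)) =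
        algebraMap ℚ (LaurentSeries ℂ) := Subsingleton.elim _ _
    have h5 : iota N (algebraMap ℚ (LaurentSeries ℚ) r) = algebraMap ℚ (LaurentSeries ℂ) r :=
      RingHom.congr_fun h4 r
    rw [h5, eq_ratCast]
    exact SubfieldClass.ratCast_mem S r
  | add y z _ _ hy hz => rw [map_add]; exact add_mem hy hz
  | inv y _ hy => rw [map_inv₀]; exact inv_mem hy
  | mul y z _ _ hy hz => rw [map_mul]; exact mul_mem hy hz

/-- Part 2: the powers of `θ` span the function field over `ℚ(j)`. -/
theorem span_of_subfield (N : ℕ) [NeZero N] (n : ℕ)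
    (O : Type) [CommRing O] [Algebra O ℂ] (hinj : Function.Injective (algebraMap O ℂ))
    (S : Subfield (LaurentSeries ℂ))
    (hS : ∀ (d : ℕ) [NeZero d], d ∣ N → qExpand ℂ N (qExpand ℂ d (jqModC ℂ)) ∈ S)
    (hspan : ∀ y ∈ S, ∃ (b : Polynomial O) (a : Fin n → Polynomial O), b ≠ 0 ∧
          Polynomial.aeval (qExpand ℂ N (jqModC ℂ)) b * y =
            ∑ i, Polynomial.aeval (qExpand ℂ N (jqModC ℂ)) (a i) *
              (qExpand ℂ N (qExpand ℂ N (jqModC ℂ))) ^ (i : ℕ))
    (x : LaurentSeries ℚ) (hx : x ∈ modularFunctionFieldFull N) :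
    ∃ (b : Polynomial ℤ) (a : Fin n → Polynomial ℤ), b ≠ 0 ∧
      evalAtJ b * x = ∑ i, evalAtJ (a i) * (qExpand ℚ N jq) ^ (i : ℕ) := by
  obtain ⟨b, a, hb, h⟩ := hspan _ (iota_mem N S hS x hx)
  have hb' : b.map (algebraMap O ℂ) ≠ 0 := (Polynomial.map_ne_zero_iff hinj).mpr hb
  have hj : jqModC ℂ = coeffMap (algebraMap ℚ ℂ) jq := by
    rw [← jqModC_rat, coeffMap_jqModC]
  have h1 : Polynomial.aeval (coeffMap (algebraMap ℚ ℂ) jq) (b.map (algebraMap O ℂ)) *
      coeffMap (algebraMap ℚ ℂ) x =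
      ∑ i, Polynomial.aeval (coeffMap (algebraMap ℚ ℂ) jq) ((a i).map (algebraMap O ℂ)) *
        (coeffMap (algebraMap ℚ ℂ) (qExpand ℚ N jq)) ^ (i : ℕ) := by
    apply qExpand_injective (R := ℂ) N
    simp only [map_sum, map_mul, map_pow, qExpand_aeval, aeval_map_algebraMap_laurent,
      coeffMap_qExpand, ← hj]
    exact h
  obtain ⟨b', a', hb'', h2⟩ := descend_rat n jq x (qExpand ℚ N jq) _ _ hb' h1
  exact clear_denoms n x _ b' a' hb'' h2

end Descent

/-- **Interface B → C is inhabited.** -/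
theorem exists_degreeData (N : ℕ) [NeZero N] (ℓ : ℕ) [Fact ℓ.Prime] (hℓN : ¬ ℓ ∣ N) :
    ∃ n : ℕ, DegreeData N ℓ n := by
  obtain ⟨D⟩ := exists_cuspData N ℓ hℓN
  obtain ⟨k, _, _, π, hπ⟩ := exists_residue ℓ
  obtain ⟨n, ⟨Φ, hΦ, hΦ0⟩, ⟨S, hS, hspan⟩, hindep⟩ := D.main ℂ k π hπ
  exact ⟨n, Descent.integral_of_monic N ℓ (Ocl ℓ) (fun _ => rfl) Φ hΦ hΦ0,
    fun x hx => Descent.span_of_subfield N n (Ocl ℓ) Subtype.val_injective S hS hspan x hx,
    fun a ha => Descent.indep_of_indep N ℓ n k hindep a ha⟩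

end Fermat.Agent.S28.DG
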