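import Fermat.Agent.S28.Glue
import Fermat.Agent.S28.Tensor
import Fermat.Agent.S28.DG.Charts
import Fermat.Agent.S28.DG.Descent

/-!
# S28, route DG: final assembly
-/

set_option autoImplicit false
open AlgebraicGeometry CategoryTheory CategoryTheory.Limits ModularCurve ModularCurve.IgusaScheme
noncomputable section

namespace Fermat.Agent.S28.DG

set_option maxHeartbeats 4000000 in
set_option synthInstance.maxHeartbeats 400000 in
theorem final
    (N : ℕ) [NeZero N] (ℓ : ℕ) [Fact ℓ.Prime] (hℓN : ¬ ℓ ∣ N)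
    (K : Type) [Field K] [CharP K ℓ] [Algebra ↥(GaloisRep.ratLocalizedAt ℓ) K] :
    IsIntegral ↑(pullback (igusaTo N ℓ)
      (Spec.map (CommRingCat.ofHom (algebraMap ↥(GaloisRep.ratLocalizedAt ℓ) K)))) := by
  obtain ⟨n, h⟩ := exists_degreeData N ℓ hℓN
  obtain ⟨φFin, -, hFin⟩ := exists_chartFin_hom N ℓ h
  obtain ⟨φMid, -⟩ := exists_chartMid_hom N ℓ h
  obtain ⟨φInf, hInf⟩ := exists_chartInf_hom N ℓ h
  exact isIntegral_pullback_of_charts N ℓ K
    (isDomain_tensor_of_red ℓ _ K φFin hFin)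
    (isDomain_tensor_of_red ℓ _ K φInf hInf)
    (nontrivial_tensor_of_red ℓ _ K φMid)

end Fermat.Agent.S28.DG
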