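import Fermat.Agent.S28.DG.Basic

/-!
# S28, Part C: basic facts on `R = ℤ_(ℓ) = GaloisRep.ratLocalizedAt ℓ` (a subring of `ℚ`)
-/

set_option autoImplicit false
noncomputable section

namespace Fermat.Agent.S28.DG

/-! ### helper lemmas -/

section helpers

variable (ℓ : ℕ)

theorem rl_mem_iff (q : ℚ) : q ∈ GaloisRep.ratLocalizedAt ℓ ↔ q.den.Coprime ℓ := Iff.rfl

theorem rl_inv_natCast_mem {d : ℕ} (hd : d.Coprime ℓ) :
    ((d : ℚ))⁻¹ ∈ GaloisRep.ratLocalizedAt ℓ := by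
  rw [rl_mem_iff, Rat.inv_natCast_den]
  split_ifs with h
  · exact Nat.coprime_one_left _
  · exact hd

/-- the inverse of a natural number prime to `ℓ`, as an element of `ℤ_(ℓ)`. -/
def rlInv {d : ℕ} (hd : d.Coprime ℓ) : Rl ℓ := ⟨((d : ℚ))⁻¹, rl_inv_natCast_mem ℓ hd⟩

theorem rl_natCast_mul_inv {d : ℕ} (hd : d.Coprime ℓ) (h0 : d ≠ 0) :
    (d : Rl ℓ) * rlInv ℓ hd = 1 := by
  apply Subtype.ext
  have : (d : ℚ) ≠ 0 := by exact_mod_cast h0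
  simp [rlInv, this]

theorem rl_inv_mul_natCast {d : ℕ} (hd : d.Coprime ℓ) (h0 : d ≠ 0) :
    rlInv ℓ hd * (d : Rl ℓ) = 1 := by
  rw [mul_comm, rl_natCast_mul_inv ℓ hd h0]

theorem rl_eq_num_mul_inv (x : Rl ℓ) :
    x = ((x : ℚ).num : Rl ℓ) * rlInv ℓ (d := (x : ℚ).den) x.2 := by
  apply Subtype.ext
  simp only [rlInv, Subring.coe_mul, Subring.coe_intCast]
  rw [← div_eq_mul_inv, Rat.num_div_den]

theorem rl_mul_den (x : Rl ℓ) : x * (((x : ℚ).den : ℕ) : Rl ℓ) = ((x : ℚ).num : Rl ℓ) := by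
  apply Subtype.ext
  simp only [Subring.coe_mul, Subring.coe_intCast, Subring.coe_natCast]
  exact Rat.mul_den_eq_num _

variable [Fact ℓ.Prime]

theorem rl_coprime_iff (n : ℕ) : n.Coprime ℓ ↔ ¬ ℓ ∣ n := by
  rw [Nat.coprime_comm]
  exact Nat.Prime.coprime_iff_not_dvd Fact.out

theorem rl_divInt_mem (a b : ℤ) (hb : ¬ (ℓ : ℤ) ∣ b) :
    (a : ℚ) / (b : ℚ) ∈ GaloisRep.ratLocalizedAt ℓ := by
  rw [rl_mem_iff, rl_coprime_iff]
  intro h
  apply hb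
  have h1 : (((a : ℚ) / (b : ℚ)).den : ℤ) ∣ b := by
    rw [← Rat.divInt_eq_div]
    exact Rat.den_dvd a b
  exact (Int.natCast_dvd_natCast.2 h).trans h1

theorem rl_span_isPrime : (Ideal.span {(ℓ : ℤ)}).IsPrime := by
  have hp : ℓ.Prime := Fact.out
  rw [Ideal.span_singleton_prime (by exact_mod_cast hp.ne_zero)]
  exact Nat.prime_iff_prime_int.1 hp

theorem rl_isUnit_intCast {n : ℤ} (hn : ¬ (ℓ : ℤ) ∣ n) : IsUnit (n : Rl ℓ) := by
  have h0 : (n : ℚ) ≠ 0 := by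
    intro h
    apply hn
    have : n = 0 := by exact_mod_cast h
    rw [this]; exact dvd_zero _
  refine IsUnit.of_mul_eq_one ⟨(1 : ℚ) / (n : ℚ), ?_⟩ ?_
  · have := rl_divInt_mem ℓ 1 n hn
    simpa using this
  · apply Subtype.ext
    simp [h0]

theorem rl_isLocalization :
    @IsLocalization.AtPrime ℤ _ (Rl ℓ) _ _ (Ideal.span {(ℓ : ℤ)}) (rl_span_isPrime ℓ) := by
  have := rl_span_isPrime ℓ
  rw [IsLocalization.AtPrime, isLocalization_iff]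
  refine ⟨?_, ?_, ?_⟩
  · rintro ⟨m, hm⟩
    have hm' : ¬ (ℓ : ℤ) ∣ m := by
      intro h
      exact hm (Ideal.mem_span_singleton.2 h)
    simpa using rl_isUnit_intCast ℓ hm'
  · intro z
    refine ⟨((z : ℚ).num, ⟨((z : ℚ).den : ℤ), ?_⟩), ?_⟩
    · intro h
      have h1 : (ℓ : ℤ) ∣ ((z : ℚ).den : ℤ) := Ideal.mem_span_singleton.1 h
      have h2 : ℓ ∣ (z : ℚ).den := Int.natCast_dvd_natCast.1 h1
      exact (rl_coprime_iff ℓ _).1 z.2 h2
    · simpa using rl_mul_den ℓ z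
  · intro x y hxy
    refine ⟨1, ?_⟩
    have : ((x : Rl ℓ) : ℚ) = ((y : Rl ℓ) : ℚ) := by
      have := congrArg (Subtype.val) hxy
      simpa using this
    have hxy' : x = y := by exact_mod_cast this
    rw [hxy']

theorem rl_isUnit_castRingHom (y : (Ideal.span {(ℓ : ℤ)}).primeCompl) :
    IsUnit (Int.castRingHom (ZMod ℓ) y) := by
  obtain ⟨m, hm⟩ := y
  have hm' : ¬ (ℓ : ℤ) ∣ m := by
    intro h
    exact hm (Ideal.mem_span_singleton.2 h)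
  rw [isUnit_iff_ne_zero]
  simpa [ZMod.intCast_zmod_eq_zero_iff_dvd] using hm'

instance rl_isDVR : IsDiscreteValuationRing (Rl ℓ) := by
  have hp : ℓ.Prime := Fact.out
  have := rl_span_isPrime ℓ
  have := rl_isLocalization ℓ
  refine IsLocalization.AtPrime.isDiscreteValuationRing_of_dedekind_domain ℤ
    (P := Ideal.span {(ℓ : ℤ)}) ?_ (Rl ℓ)
  rw [Ne, Ideal.span_singleton_eq_bot]
  exact_mod_cast hp.ne_zero

end helpers

variable (ℓ : ℕ) [Fact ℓ.Prime]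

/-- the residue map `ℤ_(ℓ) → 𝔽_ℓ` (e.g. `x ↦ ((x : ℚ) : ZMod ℓ)`, use `Rat.cast_add_of_ne_zero` etc.). -/
def resR : Rl ℓ →+* ZMod ℓ :=
  @IsLocalization.lift ℤ _ (Ideal.span {(ℓ : ℤ)}).primeCompl (Rl ℓ) _ _ (ZMod ℓ) _
    (rl_isLocalization ℓ) (Int.castRingHom (ZMod ℓ)) (rl_isUnit_castRingHom ℓ)

theorem resR_surjective : Function.Surjective (resR ℓ) := by
  intro z
  obtain ⟨n, rfl⟩ := ZMod.intCast_surjective z
  exact ⟨(n : Rl ℓ), by simp⟩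

theorem resR_eq_zero_iff (x : Rl ℓ) : resR ℓ x = 0 ↔ ∃ y, x = (ℓ : Rl ℓ) * y := by
  have h1 : resR ℓ x * (((x : ℚ).den : ℕ) : ZMod ℓ) = ((x : ℚ).num : ZMod ℓ) := by
    have := congrArg (resR ℓ) (rl_mul_den ℓ x)
    simpa using this
  have hden : (((x : ℚ).den : ℕ) : ZMod ℓ) ≠ 0 := by
    rw [Ne, ZMod.natCast_eq_zero_iff]
    exact (rl_coprime_iff ℓ _).1 x.2
  constructor
  · intro hx
    rw [hx, zero_mul] at h1
    have h2 : (ℓ : ℤ) ∣ (x : ℚ).num := (ZMod.intCast_zmod_eq_zero_iff_dvd _ _).1 h1.symm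
    obtain ⟨k, hk⟩ := h2
    refine ⟨(k : Rl ℓ) * rlInv ℓ (d := (x : ℚ).den) x.2, ?_⟩
    conv_lhs => rw [rl_eq_num_mul_inv ℓ x, hk]
    push_cast
    ring
  · rintro ⟨y, rfl⟩
    rw [map_mul, map_natCast, ZMod.natCast_self, zero_mul]

set_option linter.unusedSectionVars false in
/-- `ℤ → ℤ_(ℓ)` is an epimorphism of rings. -/
theorem ringHom_Rl_ext {S : Type*} [Semiring S] (f g : Rl ℓ →+* S) : f = g := by
  have hZ : f.comp (Int.castRingHom (Rl ℓ)) = g.comp (Int.castRingHom (Rl ℓ)) :=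
    RingHom.ext_int _ _
  have hint : ∀ n : ℤ, f (n : Rl ℓ) = g (n : Rl ℓ) := fun n => by
    simpa using RingHom.congr_fun hZ n
  have hnat : ∀ n : ℕ, f (n : Rl ℓ) = g (n : Rl ℓ) := fun n => by
    simp
  ext x
  have hd := x.2
  have h0 : (x : ℚ).den ≠ 0 := (x : ℚ).den_nz
  set d := (x : ℚ).den with hdd
  have hinv : f (rlInv ℓ (d := d) hd) = g (rlInv ℓ (d := d) hd) := by
    calc f (rlInv ℓ hd) = f (rlInv ℓ hd) * (g (d : Rl ℓ) * g (rlInv ℓ hd)) := by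
          rw [← map_mul, rl_natCast_mul_inv ℓ hd h0, map_one, mul_one]
      _ = (f (rlInv ℓ hd) * f (d : Rl ℓ)) * g (rlInv ℓ hd) := by
          rw [← hnat, mul_assoc]
      _ = g (rlInv ℓ hd) := by
          rw [← map_mul, rl_inv_mul_natCast ℓ hd h0, map_one, one_mul]
  rw [rl_eq_num_mul_inv ℓ x, map_mul, map_mul, hint, hinv]

instance isFractionRing_Rl : IsFractionRing (Rl ℓ) ℚ := by
  have := rl_span_isPrime ℓ
  have := rl_isLocalization ℓ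
  exact IsFractionRing.isFractionRing_of_isDomain_of_isLocalization
    (Ideal.span {(ℓ : ℤ)}).primeCompl (Rl ℓ) ℚ

instance isIntegrallyClosed_Rl : IsIntegrallyClosed (Rl ℓ) := inferInstance

theorem prime_ell : Prime (ℓ : Rl ℓ) := by
  have hp : ℓ.Prime := Fact.out
  have hdvd : ∀ x : Rl ℓ, (ℓ : Rl ℓ) ∣ x ↔ resR ℓ x = 0 := fun x =>
    (resR_eq_zero_iff ℓ x).symm
  refine ⟨?_, ?_, ?_⟩
  · exact_mod_cast hp.ne_zero
  · intro hu
    have h1 : IsUnit (resR ℓ (ℓ : Rl ℓ)) := hu.map (resR ℓ)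
    rw [map_natCast, ZMod.natCast_self] at h1
    exact not_isUnit_zero h1
  · intro a b hab
    rw [hdvd, map_mul, mul_eq_zero] at hab
    rwa [hdvd, hdvd]

/-- every rational is an element of `ℤ_(ℓ)` divided by a power of `ℓ`. -/
theorem exists_pow_mul_mem (x : ℚ) : ∃ (e : ℕ) (r : Rl ℓ), (ℓ : ℚ) ^ e * x = r := by
  have hp : ℓ.Prime := Fact.out
  obtain ⟨e, m, hm, hden⟩ := Nat.exists_eq_pow_mul_and_not_dvd x.den_nz ℓ hp.ne_one
  have hm' : ¬ (ℓ : ℤ) ∣ (m : ℤ) := fun h => hm (Int.natCast_dvd_natCast.1 h)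
  refine ⟨e, ⟨(x.num : ℚ) / ((m : ℤ) : ℚ), rl_divInt_mem ℓ _ _ hm'⟩, ?_⟩
  have hℓ0 : (ℓ : ℚ) ≠ 0 := by exact_mod_cast hp.ne_zero
  have hm0 : (m : ℚ) ≠ 0 := by
    intro h
    apply hm
    have : m = 0 := by exact_mod_cast h
    rw [this]; exact dvd_zero _
  show (ℓ : ℚ) ^ e * x = (x.num : ℚ) / ((m : ℤ) : ℚ)
  conv_lhs => rw [← Rat.num_div_den x, hden]
  push_cast
  field_simp

end Fermat.Agent.S28.DG
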