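import Fermat.Agent.S28.DG.Rfacts

/-!
# S28, Part C: the discrete valuation ring `𝒱 ⊆ ℚ((q))` (localisation of `ℤ_(ℓ)((q))` at `ℓ`)
and its reduction map to `𝔽_ℓ((q))`
-/

set_option autoImplicit false
open ModularCurve
noncomputable section

namespace Fermat.Agent.S28.DG

variable (ℓ : ℕ) [Fact ℓ.Prime]

/-- `ℤ_(ℓ)((q)) → ℚ((q))`. -/
def iotaL : LaurentSeries (Rl ℓ) →+* LaurentSeries ℚ := coeffMap (algebraMap (Rl ℓ) ℚ)

/-- `ℤ_(ℓ)((q)) → 𝔽_ℓ((q))`. -/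
def redL : LaurentSeries (Rl ℓ) →+* LaurentSeries (ZMod ℓ) := coeffMap (resR ℓ)

theorem vr_coeff_natCast_mul {R : Type*} [CommRing R] (n : ℕ) (x : LaurentSeries R) (k : ℤ) :
    ((n : LaurentSeries R) * x).coeff k = (n : R) * x.coeff k := by
  rw [← nsmul_eq_mul, HahnSeries.coeff_nsmul, Pi.smul_apply, nsmul_eq_mul]

theorem vr_natCast_self_eq_zero : ((ℓ : ℕ) : LaurentSeries (ZMod ℓ)) = 0 := by
  rw [← map_natCast (HahnSeries.C : ZMod ℓ →+* LaurentSeries (ZMod ℓ)), ZMod.natCast_self,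
    map_zero]

theorem iotaL_injective : Function.Injective (iotaL ℓ) := by
  intro a b h
  ext n
  have h1 := congrArg (fun z => HahnSeries.coeff z n) h
  simpa [iotaL] using h1

theorem redL_eq_zero_iff (a : LaurentSeries (Rl ℓ)) :
    redL ℓ a = 0 ↔ ∃ a', a = (ℓ : LaurentSeries (Rl ℓ)) * a' := by
  have hp : ℓ.Prime := Fact.out
  constructor
  · intro h
    have h1 : ∀ n, ∃ y, a.coeff n = (ℓ : Rl ℓ) * y := by
      intro n
      rw [← resR_eq_zero_iff]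
      have h1 := congrArg (fun z => HahnSeries.coeff z n) h
      simpa [redL] using h1
    choose y hy using h1
    refine ⟨HahnSeries.mk y (a.isPWO_support.mono ?_), ?_⟩
    · intro n hn
      simp only [Function.mem_support, ne_eq] at hn
      rw [HahnSeries.mem_support, hy n]
      intro h0
      apply hn
      have hℓ0 : (ℓ : Rl ℓ) ≠ 0 := by exact_mod_cast hp.ne_zero
      exact (mul_eq_zero.1 h0).resolve_left hℓ0
    · ext n
      rw [vr_coeff_natCast_mul, hy n]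
  · rintro ⟨a', rfl⟩
    rw [map_mul, map_natCast, vr_natCast_self_eq_zero, zero_mul]

set_option linter.unusedSectionVars false in
/-- `x ∈ ℚ((q))` lies in the image of `ℤ_(ℓ)((q))` iff all its coefficients are `ℓ`-integral. -/
theorem mem_range_iotaL_iff (x : LaurentSeries ℚ) :
    x ∈ (iotaL ℓ).range ↔ ∀ n, x.coeff n ∈ GaloisRep.ratLocalizedAt ℓ := by
  constructor
  · rintro ⟨a, rfl⟩ n
    exact (a.coeff n).2
  · intro h
    refine ⟨HahnSeries.mk (fun n => (⟨x.coeff n, h n⟩ : Rl ℓ)) (x.isPWO_support.mono ?_), ?_⟩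
    · intro n hn
      simp only [Function.mem_support, ne_eq] at hn
      rw [HahnSeries.mem_support]
      intro h0
      apply hn
      exact Subtype.ext h0
    · ext n
      rfl

/-- `𝒱 = { a / b : a, b ∈ ℤ_(ℓ)((q)), b ≢ 0 mod ℓ }`. -/
def Vring : Subring (LaurentSeries ℚ) where
  carrier := {x | ∃ a b : LaurentSeries (Rl ℓ), redL ℓ b ≠ 0 ∧ iotaL ℓ b * x = iotaL ℓ a}
  mul_mem' := by
    rintro x y ⟨a, b, hb, h⟩ ⟨a', b', hb', h'⟩
    refine ⟨a * a', b * b', ?_, ?_⟩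
    · rw [map_mul]; exact mul_ne_zero hb hb'
    · rw [map_mul, map_mul, ← h, ← h']; ring
  one_mem' := ⟨1, 1, by rw [map_one]; exact one_ne_zero, by rw [map_one, mul_one]⟩
  add_mem' := by
    rintro x y ⟨a, b, hb, h⟩ ⟨a', b', hb', h'⟩
    refine ⟨a * b' + a' * b, b * b', ?_, ?_⟩
    · rw [map_mul]; exact mul_ne_zero hb hb'
    · rw [map_mul, map_add, map_mul, map_mul, ← h, ← h']; ring
  zero_mem' := ⟨0, 1, by rw [map_one]; exact one_ne_zero, by rw [map_zero, mul_zero]⟩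
  neg_mem' := by
    rintro x ⟨a, b, hb, h⟩
    exact ⟨-a, b, hb, by rw [map_neg, ← h]; ring⟩

theorem vr_mem_Vring_iff (x : LaurentSeries ℚ) :
    x ∈ Vring ℓ ↔ ∃ a b : LaurentSeries (Rl ℓ), redL ℓ b ≠ 0 ∧ iotaL ℓ b * x = iotaL ℓ a :=
  Iff.rfl

/-- chosen numerator. -/
def vrNum (x : ↥(Vring ℓ)) : LaurentSeries (Rl ℓ) := ((vr_mem_Vring_iff ℓ _).1 x.2).choose

/-- chosen denominator. -/
def vrDen (x : ↥(Vring ℓ)) : LaurentSeries (Rl ℓ) :=
  ((vr_mem_Vring_iff ℓ _).1 x.2).choose_spec.choose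

theorem vr_redL_den_ne_zero (x : ↥(Vring ℓ)) : redL ℓ (vrDen ℓ x) ≠ 0 :=
  ((vr_mem_Vring_iff ℓ _).1 x.2).choose_spec.choose_spec.1

theorem vr_den_mul (x : ↥(Vring ℓ)) :
    iotaL ℓ (vrDen ℓ x) * (x : LaurentSeries ℚ) = iotaL ℓ (vrNum ℓ x) :=
  ((vr_mem_Vring_iff ℓ _).1 x.2).choose_spec.choose_spec.2

/-- the underlying function of `redV`. -/
def vrFun (x : ↥(Vring ℓ)) : LaurentSeries (ZMod ℓ) :=
  redL ℓ (vrNum ℓ x) / redL ℓ (vrDen ℓ x)

theorem vrFun_spec (x : ↥(Vring ℓ)) (a b : LaurentSeries (Rl ℓ))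
    (h : iotaL ℓ b * (x : LaurentSeries ℚ) = iotaL ℓ a) :
    redL ℓ b * vrFun ℓ x = redL ℓ a := by
  have h1 : a * vrDen ℓ x = vrNum ℓ x * b := by
    apply iotaL_injective ℓ
    rw [map_mul, map_mul, ← h, ← vr_den_mul ℓ x]
    ring
  have h2 : redL ℓ a * redL ℓ (vrDen ℓ x) = redL ℓ (vrNum ℓ x) * redL ℓ b := by
    rw [← map_mul, ← map_mul, h1]
  have h3 := vr_redL_den_ne_zero ℓ x
  unfold vrFun
  field_simp
  linear_combination -h2

theorem vrFun_eq_of (x : ↥(Vring ℓ)) (z : LaurentSeries (ZMod ℓ)) (a b : LaurentSeries (Rl ℓ))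
    (hb : redL ℓ b ≠ 0) (h : iotaL ℓ b * (x : LaurentSeries ℚ) = iotaL ℓ a)
    (hz : redL ℓ b * z = redL ℓ a) : vrFun ℓ x = z := by
  apply mul_left_cancel₀ hb
  rw [vrFun_spec ℓ x a b h, hz]

/-- reduction `𝒱 → 𝔽_ℓ((q))`, `a/b ↦ ā / b̄`. -/
def redV : ↥(Vring ℓ) →+* LaurentSeries (ZMod ℓ) where
  toFun := vrFun ℓ
  map_one' := by
    refine vrFun_eq_of ℓ 1 1 1 1 (by rw [map_one]; exact one_ne_zero) ?_ ?_
    · rw [map_one, one_mul]; rfl
    · rw [map_one, one_mul]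
  map_mul' x y := by
    refine vrFun_eq_of ℓ (x * y) _ (vrNum ℓ x * vrNum ℓ y) (vrDen ℓ x * vrDen ℓ y) ?_ ?_ ?_
    · rw [map_mul]; exact mul_ne_zero (vr_redL_den_ne_zero ℓ x) (vr_redL_den_ne_zero ℓ y)
    · rw [map_mul, map_mul, ← vr_den_mul ℓ x, ← vr_den_mul ℓ y, Subring.coe_mul]; ring
    · rw [map_mul, map_mul, ← vrFun_spec ℓ x _ _ (vr_den_mul ℓ x),
        ← vrFun_spec ℓ y _ _ (vr_den_mul ℓ y)]
      ring
  map_zero' := by
    refine vrFun_eq_of ℓ 0 0 0 1 (by rw [map_one]; exact one_ne_zero) ?_ ?_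
    · rw [map_one, one_mul, map_zero]; rfl
    · rw [map_zero, mul_zero]
  map_add' x y := by
    refine vrFun_eq_of ℓ (x + y) _ (vrNum ℓ x * vrDen ℓ y + vrNum ℓ y * vrDen ℓ x)
      (vrDen ℓ x * vrDen ℓ y) ?_ ?_ ?_
    · rw [map_mul]; exact mul_ne_zero (vr_redL_den_ne_zero ℓ x) (vr_redL_den_ne_zero ℓ y)
    · rw [map_mul, map_add, map_mul, map_mul, ← vr_den_mul ℓ x, ← vr_den_mul ℓ y,
        Subring.coe_add]
      ring
    · rw [map_mul, map_add, map_mul, map_mul, ← vrFun_spec ℓ x _ _ (vr_den_mul ℓ x),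
        ← vrFun_spec ℓ y _ _ (vr_den_mul ℓ y)]
      ring

theorem redV_spec (x : ↥(Vring ℓ)) (a b : LaurentSeries (Rl ℓ))
    (h : iotaL ℓ b * (x : LaurentSeries ℚ) = iotaL ℓ a) :
    redL ℓ b * redV ℓ x = redL ℓ a :=
  vrFun_spec ℓ x a b h

theorem iotaL_mem_Vring (a : LaurentSeries (Rl ℓ)) : iotaL ℓ a ∈ Vring ℓ :=
  ⟨a, 1, by rw [map_one]; exact one_ne_zero, by rw [map_one, one_mul]⟩

/-- auxiliary induction for `vr_exists_pow_mul`. -/
theorem vr_exists_pow_mul_aux (n : ℤ) (r : ℕ) : ∀ a : LaurentSeries (Rl ℓ),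
    ¬ (ℓ : Rl ℓ) ^ (r + 1) ∣ a.coeff n →
    ∃ (s : ℕ) (a₀ : LaurentSeries (Rl ℓ)), redL ℓ a₀ ≠ 0 ∧
      a = (ℓ : LaurentSeries (Rl ℓ)) ^ s * a₀ := by
  induction r with
  | zero =>
    intro a ha
    refine ⟨0, a, ?_, by rw [pow_zero, one_mul]⟩
    intro h0
    obtain ⟨a', rfl⟩ := (redL_eq_zero_iff ℓ a).1 h0
    apply ha
    rw [vr_coeff_natCast_mul, zero_add, pow_one]
    exact dvd_mul_right _ _
  | succ r ih =>
    intro a ha
    by_cases h0 : redL ℓ a = 0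
    · obtain ⟨a', rfl⟩ := (redL_eq_zero_iff ℓ a).1 h0
      have ha' : ¬ (ℓ : Rl ℓ) ^ (r + 1) ∣ a'.coeff n := by
        intro h
        apply ha
        rw [vr_coeff_natCast_mul, pow_succ' _ (r + 1)]
        exact mul_dvd_mul_left _ h
      obtain ⟨s, a₀, h1, h2⟩ := ih a' ha'
      exact ⟨s + 1, a₀, h1, by rw [h2, pow_succ']; ring⟩
    · exact ⟨0, a, h0, by rw [pow_zero, one_mul]⟩

/-- every nonzero element of `ℤ_(ℓ)((q))` is a power of `ℓ` times an element which is nonzero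
mod `ℓ`. -/
theorem vr_exists_pow_mul (a : LaurentSeries (Rl ℓ)) (ha : a ≠ 0) :
    ∃ (s : ℕ) (a₀ : LaurentSeries (Rl ℓ)), redL ℓ a₀ ≠ 0 ∧
      a = (ℓ : LaurentSeries (Rl ℓ)) ^ s * a₀ := by
  obtain ⟨n, hn⟩ : ∃ n, a.coeff n ≠ 0 := by
    by_contra h
    apply ha
    refine HahnSeries.ext (funext fun n => ?_)
    by_contra hn
    exact h ⟨n, hn⟩
  obtain ⟨r, hr⟩ : FiniteMultiplicity (ℓ : Rl ℓ) (a.coeff n) :=
    FiniteMultiplicity.of_not_isUnit (prime_ell ℓ).not_isUnit hn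
  exact vr_exists_pow_mul_aux ℓ n r a hr

/-- elements of `ℚ((q))` of the form `a/b` (`b ≠ 0`) which are integral over `𝒱` are in `𝒱`. It is
enough to have this for `x` with `iotaL b * x = iotaL a`, `b ≠ 0`, root of a monic polynomial
with coefficients in the range of `iotaL`. -/
theorem mem_Vring_of_isIntegral (x : LaurentSeries ℚ) (a b : LaurentSeries (Rl ℓ)) (hb : b ≠ 0)
    (h : iotaL ℓ b * x = iotaL ℓ a) (hx : IsIntegral (iotaL ℓ).range x) : x ∈ Vring ℓ := by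
  have hp : ℓ.Prime := Fact.out
  have hℓ0 : ((ℓ : ℕ) : LaurentSeries ℚ) ≠ 0 := by
    rw [← map_natCast (HahnSeries.C : ℚ →+* LaurentSeries ℚ), Ne, map_eq_zero]
    exact_mod_cast hp.ne_zero
  by_cases ha : a = 0
  · have hb' : iotaL ℓ b ≠ 0 := by
      rw [Ne, map_eq_zero_iff _ (iotaL_injective ℓ)]; exact hb
    rw [ha, map_zero] at h
    rw [(mul_eq_zero.1 h).resolve_left hb']
    exact (Vring ℓ).zero_mem
  obtain ⟨r, a₀, ha₀, rfl⟩ := vr_exists_pow_mul ℓ a ha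
  obtain ⟨s, b₀, hb₀, rfl⟩ := vr_exists_pow_mul ℓ b hb
  rw [map_mul, map_mul, map_pow, map_pow, map_natCast] at h
  rcases le_or_gt s r with hsr | hsr
  · obtain ⟨t, rfl⟩ := Nat.exists_eq_add_of_le hsr
    refine ⟨(ℓ : LaurentSeries (Rl ℓ)) ^ t * a₀, b₀, hb₀, ?_⟩
    apply mul_left_cancel₀ (pow_ne_zero s hℓ0)
    rw [map_mul, map_pow, map_natCast, ← mul_assoc, h, pow_add]
    ring
  · exfalso
    obtain ⟨t, rfl⟩ := Nat.exists_eq_add_of_lt hsr
    -- `ℓ^(t+1) b₀ x = a₀`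
    have h1 : iotaL ℓ ((ℓ : LaurentSeries (Rl ℓ)) ^ (t + 1) * b₀) * x = iotaL ℓ a₀ := by
      apply mul_left_cancel₀ (pow_ne_zero r hℓ0)
      rw [← h, map_mul, map_pow, map_natCast, add_assoc, pow_add]
      ring
    obtain ⟨p, hpm, hpx⟩ := hx
    obtain ⟨P, hP, -, hPm⟩ := Polynomial.lifts_and_natDegree_eq_and_monic
      (f := (iotaL ℓ).rangeRestrict)
      ((Polynomial.lifts_iff_coeff_lifts p).2 fun n => by
        obtain ⟨c, hc⟩ := (iotaL ℓ).rangeRestrict_surjective (p.coeff n)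
        exact ⟨c, hc⟩) hpm
    have hPx : Polynomial.eval₂ (iotaL ℓ) x P = 0 := by
      rw [← hP, Polynomial.eval₂_map] at hpx
      exact hpx
    set σ : LaurentSeries (Rl ℓ) := (ℓ : LaurentSeries (Rl ℓ)) ^ (t + 1) * b₀ with hσ
    have h2 : Polynomial.eval₂ (iotaL ℓ) (iotaL ℓ a₀) (P.scaleRoots σ) = 0 := by
      rw [← h1]
      exact Polynomial.scaleRoots_eval₂_eq_zero _ hPx
    rw [Polynomial.eval₂_at_apply, map_eq_zero_iff _ (iotaL_injective ℓ)] at h2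
    have h3 : Polynomial.eval (redL ℓ a₀) ((P.scaleRoots σ).map (redL ℓ)) = 0 := by
      rw [Polynomial.eval_map, Polynomial.eval₂_at_apply, h2, map_zero]
    have hσ0 : redL ℓ σ = 0 := by
      rw [hσ, map_mul, map_pow, map_natCast, vr_natCast_self_eq_zero, pow_succ, mul_zero,
        zero_mul]
    rw [Polynomial.map_scaleRoots _ _ _ (by rw [hPm.leadingCoeff, map_one]; exact one_ne_zero),
      hσ0, Polynomial.scaleRoots_zero, (hPm.map _).leadingCoeff, one_smul,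
      Polynomial.eval_pow, Polynomial.eval_X] at h3
    exact ha₀ (eq_zero_of_pow_eq_zero h3)

end Fermat.Agent.S28.DG
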